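import Mathlib
import Fermat.Prelude.Def_ExtCitation_AdmissibleExtension_v2
import Fermat.Agent.S54_Frob

set_option autoImplicit false

namespace Fermat.Agent.S14.Frob.ValuationLift

open scoped Pointwise
open Fermat.Agent.S54

local notation "Qb" => AlgebraicClosure ℚ
local notation "Γ" => (AlgebraicClosure ℚ ≃ₐ[ℚ] AlgebraicClosure ℚ)

attribute [local instance] isAlgebraic_qbar isGalois_qbar

/-- Membership in the decomposition group, tested on algebraic integers. -/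
theorem mem_decomposition_iff (ℓ : ℕ) (hℓ : ℓ.Prime) (A : ValuationSubring Qb)
    (hA : A.LiesOverPrime ℓ) (σ : Γ) :
    σ ∈ A.decompositionSubgroup ℚ ↔
      ∀ b : Qb, IsIntegral ℤ b → (b ∈ A.nonunits ↔ σ b ∈ A.nonunits) := by
  constructor
  · intro hσ b _
    rw [MulAction.mem_stabilizer_iff] at hσ
    have hmem : ∀ x : Qb, σ x ∈ A ↔ x ∈ A := by
      intro x
      conv_lhs => rw [← hσ]
      rw [ValuationSubring.mem_pointwise_smul_iff_inv_smul_mem]
      simp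
    have hnot : ∀ x : Qb, x ∉ A.nonunits ↔ σ x ∉ A.nonunits := by
      intro x
      rw [not_mem_nonunits_iff, not_mem_nonunits_iff, ← map_inv₀, hmem]
      simp
    exact not_iff_not.mp (hnot b)
  · intro hstab
    have hσ1 : ∀ x ∈ A, σ x ∈ A :=
      map_mem_of_stab ℓ hℓ A hA σ fun b hb hbn => fun h => hbn ((hstab b hb).mpr h)
    have hσ2 : ∀ x ∈ A, σ⁻¹ x ∈ A := by
      refine map_mem_of_stab ℓ hℓ A hA σ⁻¹ fun b hb hbn => fun h => hbn ?_
      have := (hstab (σ⁻¹ b) (hb.map σ⁻¹)).mp h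
      simpa using this
    rw [MulAction.mem_stabilizer_iff]
    ext x
    rw [ValuationSubring.mem_pointwise_smul_iff_inv_smul_mem]
    constructor
    · intro h
      have := hσ1 _ h
      simpa using this
    · intro h
      exact hσ2 x h

/-- Membership in the inertia group, tested on algebraic integers. -/
theorem mem_inertiaIn_iff (ℓ : ℕ) (hℓ : ℓ.Prime) (A : ValuationSubring Qb)
    (hA : A.LiesOverPrime ℓ) (σ : Γ) :
    σ ∈ A.inertiaSubgroupIn ℚ ↔
      σ ∈ A.decompositionSubgroup ℚ ∧ ∀ b : Qb, IsIntegral ℤ b → σ b - b ∈ A.nonunits := by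
  constructor
  · intro hσ
    obtain ⟨g, hg, rfl⟩ := hσ
    refine ⟨g.2, fun b hb => ?_⟩
    have hbA : b ∈ A := mem_of_isIntegral_int A hb
    have h1 : g • (IsLocalRing.residue A ⟨b, hbA⟩) = IsLocalRing.residue A ⟨b, hbA⟩ := by
      have := RingEquiv.congr_fun (MonoidHom.mem_ker.mp hg) (IsLocalRing.residue A ⟨b, hbA⟩)
      simpa using this
    rw [← IsLocalRing.ResidueField.residue_smul, ← sub_eq_zero, ← map_sub,
      IsLocalRing.residue_eq_zero_iff, ← A.coe_mem_nonunits_iff] at h1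
    exact h1
  · rintro ⟨hdec, hin⟩
    refine ⟨⟨σ, hdec⟩, ?_, rfl⟩
    rw [ValuationSubring.inertiaSubgroup, SetLike.mem_coe, MonoidHom.mem_ker]
    ext xbar
    obtain ⟨x, rfl⟩ := IsLocalRing.residue_surjective xbar
    show (⟨σ, hdec⟩ : A.decompositionSubgroup ℚ) • (IsLocalRing.residue A x) = IsLocalRing.residue A x
    rw [← IsLocalRing.ResidueField.residue_smul, ← sub_eq_zero, ← map_sub,
      IsLocalRing.residue_eq_zero_iff, ← A.coe_mem_nonunits_iff]
    show σ (x : Qb) - (x : Qb) ∈ A.nonunits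
    obtain ⟨y, z, hy, hz, hyA, hyn, hxyz⟩ :=
      exists_integral_mul_eq A ℓ hℓ hA x x.2 (isAlgebraic_int_qbar x)
    have hstab := (mem_decomposition_iff ℓ hℓ A hA σ).mp hdec
    have hσy := (not_mem_nonunits_iff A).mp (fun h => hyn ((hstab y hy).mpr h))
    have key : (σ (x : Qb) - (x : Qb)) * σ y = (σ z - z) - (x : Qb) * (σ y - y) := by
      have h1 : σ (x : Qb) * σ y = σ z := by rw [← map_mul, hxyz]
      rw [sub_mul, h1, ← hxyz]; ring
    have hmem : (σ (x : Qb) - (x : Qb)) * σ y ∈ A.nonunits := by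
      rw [key]
      exact sub_mem (hin z hz) (mul_mem_nonunits A x.2 (hin y hy))
    have : σ (x : Qb) - (x : Qb) = (σ y)⁻¹ * ((σ (x : Qb) - (x : Qb)) * σ y) := by
      rw [mul_comm _ (σ y), ← mul_assoc, inv_mul_cancel₀ hσy.1, one_mul]
    rw [this]
    exact mul_mem_nonunits A hσy.2 hmem


section Lift

local notation "Ob" => integralClosure ℤ (AlgebraicClosure ℚ)

theorem smul_primeOf_eq_iff (ℓ : ℕ) (hℓ : ℓ.Prime) (A : ValuationSubring Qb)
    (hA : A.LiesOverPrime ℓ) (σ : Γ) :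
    σ • primeOf A = primeOf A ↔ σ ∈ A.decompositionSubgroup ℚ := by
  rw [mem_decomposition_iff ℓ hℓ A hA]
  constructor
  · intro h b hb
    have h1 : (⟨b, hb⟩ : Ob) ∈ primeOf A ↔ σ • (⟨b, hb⟩ : Ob) ∈ σ • primeOf A :=
      (Ideal.smul_mem_pointwise_smul_iff).symm
    rw [h] at h1
    exact h1
  · intro h
    ext b
    rw [Ideal.mem_pointwise_smul_iff_inv_smul_mem, mem_primeOf, mem_primeOf]
    have := h (σ⁻¹ • b : Ob) (σ⁻¹ • b : Ob).2
    rw [this]
    simp

variable (E : IntermediateField ℚ Qb)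

/-- the continuity of the action of a subgroup of the absolute Galois group on algebraic integers -/
theorem continuousSMul_subgroup (H : Subgroup Γ) :
    letI : TopologicalSpace Ob := ⊥
    ContinuousSMul H Ob := by
  letI : TopologicalSpace Ob := ⊥
  haveI : DiscreteTopology Ob := ⟨rfl⟩
  rw [continuousSMul_iff_stabilizer_isOpen]
  intro x
  have : (MulAction.stabilizer H x : Set H) = Subtype.val ⁻¹' (MulAction.stabilizer Γ (x : Qb) : Set Γ) := by
    ext σ
    simp only [SetLike.mem_coe, MulAction.mem_stabilizer_iff, Set.mem_preimage, Subtype.ext_iff]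
    rfl
  rw [this]
  exact (stabilizer_isOpen_of_isIntegral (x : Qb)).preimage continuous_subtype_val


/-- `Ob`-elements fixed by the fixing subgroup of `E` lie in `E`. -/
theorem mem_of_fixed (b : Ob) (hb : ∀ g : E.fixingSubgroup, g • b = b) : (b : Qb) ∈ E := by
  have h := InfiniteGalois.fixedField_fixingSubgroup E
  rw [← h, IntermediateField.mem_fixedField_iff]
  intro f hf
  have := congrArg Subtype.val (hb ⟨f, hf⟩)
  simpa using this

/-- Decomposition groups surject: an automorphism of a finite normal subextension `E` stabilising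
the prime cut out by `A` lifts to an element of the decomposition group of `A`. -/
theorem lift_decomposition [FiniteDimensional ℚ E] [hN : Normal ℚ E] (ℓ : ℕ) (hℓ : ℓ.Prime) (A : ValuationSubring Qb)
    (hA : A.LiesOverPrime ℓ) (τ : E ≃ₐ[ℚ] E)
    (hτ : ∀ x : E, IsIntegral ℤ x → ((x : Qb) ∈ A.nonunits ↔ ((τ x : E) : Qb) ∈ A.nonunits)) :
    ∃ σ : Γ, σ ∈ A.decompositionSubgroup ℚ ∧ ∀ x : E, σ (x : Qb) = ((τ x : E) : Qb) := by
  classical
  obtain ⟨σ₀, hσ₀⟩ := AlgEquiv.restrictNormalHom_surjective (F := ℚ) (K₁ := E) Qb τ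
  have hσ₀x : ∀ x : E, σ₀ (x : Qb) = ((τ x : E) : Qb) := by
    intro x
    have h := AlgEquiv.restrictNormal_commutes σ₀ E x
    rw [show σ₀.restrictNormal E = τ from hσ₀] at h
    exact h.symm
  let H : Subgroup Γ := E.fixingSubgroup
  have hHclosed : IsClosed (H : Set Γ) := E.fixingSubgroup_isClosed
  haveI : CompactSpace H := isCompact_iff_compactSpace.mp hHclosed.isCompact
  letI : TopologicalSpace Ob := ⊥
  haveI : DiscreteTopology Ob := ⟨rfl⟩
  haveI : ContinuousSMul H Ob := continuousSMul_subgroup H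
  let A' := FixedPoints.subalgebra ℤ Ob H
  haveI : SMulCommClass H A' Ob := ⟨fun g a b => by
    show g • ((a : Ob) * b) = (a : Ob) * (g • b)
    rw [smul_mul', a.2 g]⟩
  haveI : Algebra.IsInvariant A' Ob H := ⟨fun b hb => ⟨⟨b, hb⟩, rfl⟩⟩
  let Q : Ideal Ob := primeOf A
  haveI hQp : Q.IsPrime := primeOf_isPrime A
  have hunder : (σ₀ • Q).under A' = Q.under A' := by
    ext a
    rw [Ideal.mem_comap, Ideal.mem_comap, Ideal.mem_pointwise_smul_iff_inv_smul_mem]
    have haE : ((a : Ob) : Qb) ∈ E := mem_of_fixed E (a : Ob) a.2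
    have haint : IsIntegral ℤ (⟨((a : Ob) : Qb), haE⟩ : E) := by
      have : IsIntegral ℤ ((a : Ob) : Qb) := (a : Ob).2
      exact (isIntegral_algebraMap_iff (algebraMap E Qb).injective).mp this
    set x : E := ⟨((a : Ob) : Qb), haE⟩ with hx
    have h1 : (σ₀⁻¹ • (algebraMap A' Ob a) : Ob) ∈ Q ↔ ((τ.symm x : E) : Qb) ∈ A.nonunits := by
      rw [mem_primeOf]
      have : ((σ₀⁻¹ • (algebraMap A' Ob a) : Ob) : Qb) = ((τ.symm x : E) : Qb) := by
        have h2 := hσ₀x (τ.symm x)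
        rw [AlgEquiv.apply_symm_apply] at h2
        have h3 : σ₀⁻¹ (x : Qb) = ((τ.symm x : E) : Qb) := by
          rw [← h2]; simp
        exact h3
      rw [this]
    rw [h1, hτ (τ.symm x) ?_, AlgEquiv.apply_symm_apply]
    · rfl
    · exact haint.map τ.symm
  obtain ⟨g, hg⟩ := Algebra.IsInvariant.exists_smul_of_under_eq_of_profinite (A := A') (G := H)
    (σ₀ • Q) Q hunder
  refine ⟨(g : Γ) * σ₀, ?_, ?_⟩
  · rw [← smul_primeOf_eq_iff ℓ hℓ A hA, mul_smul]
    exact hg.symm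
  · intro x
    rw [AlgEquiv.mul_apply, hσ₀x]
    exact g.2 ⟨_, (τ x).2⟩


/-- Inertia groups surject: an automorphism of a finite normal subextension `E` acting trivially
modulo the prime cut out by `A` lifts to an element of the inertia group of `A`. -/
theorem lift_inertia [FiniteDimensional ℚ E] [hN : Normal ℚ E] (ℓ : ℕ) (hℓ : ℓ.Prime)
    (A : ValuationSubring Qb) (hA : A.LiesOverPrime ℓ) (τ : E ≃ₐ[ℚ] E)
    (hτ : ∀ x : E, IsIntegral ℤ x → ((τ x : E) : Qb) - (x : Qb) ∈ A.nonunits) :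
    ∃ σ : Γ, σ ∈ A.inertiaSubgroupIn ℚ ∧ ∀ x : E, σ (x : Qb) = ((τ x : E) : Qb) := by
  classical
  have hstab : ∀ x : E, IsIntegral ℤ x →
      ((x : Qb) ∈ A.nonunits ↔ ((τ x : E) : Qb) ∈ A.nonunits) := by
    intro x hx
    have h := hτ x hx
    constructor
    · intro hx'
      have := add_mem h hx'
      simpa using this
    · intro hx'
      have := sub_mem hx' h
      simpa using this
  obtain ⟨σ₁, hσ₁dec, hσ₁x⟩ := lift_decomposition E ℓ hℓ A hA τ hstab
  let H : Subgroup Γ := E.fixingSubgroup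
  have hHclosed : IsClosed (H : Set Γ) := E.fixingSubgroup_isClosed
  haveI : CompactSpace H := isCompact_iff_compactSpace.mp hHclosed.isCompact
  letI : TopologicalSpace Ob := ⊥
  haveI : DiscreteTopology Ob := ⟨rfl⟩
  haveI : ContinuousSMul H Ob := continuousSMul_subgroup H
  let A' := FixedPoints.subalgebra ℤ Ob H
  haveI : SMulCommClass H A' Ob := ⟨fun g a b => by
    show g • ((a : Ob) * b) = (a : Ob) * (g • b)
    rw [smul_mul', a.2 g]⟩
  haveI : Algebra.IsInvariant A' Ob H := ⟨fun b hb => ⟨⟨b, hb⟩, rfl⟩⟩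
  let Q : Ideal Ob := primeOf A
  haveI hQp : Q.IsPrime := primeOf_isPrime A
  let P : Ideal A' := Q.under A'
  have hσ₁Q : σ₁ • Q = Q := (smul_primeOf_eq_iff ℓ hℓ A hA σ₁).mpr hσ₁dec
  -- the automorphism of `Ob ⧸ Q` induced by `σ₁`, over `ℤ`
  let φ₀ : (Ob ⧸ Q) ≃ₐ[ℤ ⧸ Q.under ℤ] (Ob ⧸ Q) :=
    Ideal.Quotient.stabilizerHom Q (Q.under ℤ) Γ ⟨σ₁, hσ₁Q⟩
  have hφ₀ : ∀ b : Ob, φ₀ (Ideal.Quotient.mk Q b) = Ideal.Quotient.mk Q (σ₁ • b) := fun b => rfl
  let φ : (Ob ⧸ Q) ≃ₐ[A' ⧸ P] (Ob ⧸ Q) :=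
    AlgEquiv.ofRingEquiv (f := φ₀.toRingEquiv) (by
      intro t
      obtain ⟨a, rfl⟩ := Ideal.Quotient.mk_surjective t
      rw [Ideal.Quotient.algebraMap_mk_of_liesOver]
      show φ₀ (Ideal.Quotient.mk Q (algebraMap A' Ob a)) = _
      rw [hφ₀, Ideal.Quotient.eq, mem_primeOf]
      have haE : ((a : Ob) : Qb) ∈ E := mem_of_fixed E (a : Ob) a.2
      have haint : IsIntegral ℤ (⟨((a : Ob) : Qb), haE⟩ : E) := by
        have : IsIntegral ℤ ((a : Ob) : Qb) := (a : Ob).2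
        exact (isIntegral_algebraMap_iff (algebraMap E Qb).injective).mp this
      have h1 := hτ ⟨((a : Ob) : Qb), haE⟩ haint
      rw [← hσ₁x] at h1
      exact h1)
  obtain ⟨⟨ρ, hρstab⟩, hρ⟩ :=
    Ideal.Quotient.stabilizerHom_surjective_of_profinite (G := H) P Q φ
  have hρQ : (ρ : Γ) • Q = Q := MulAction.mem_stabilizer_iff.mp hρstab
  have hρb : ∀ b : Ob, σ₁ • b - (ρ : Γ) • b ∈ Q := by
    intro b
    have h1 := DFunLike.congr_fun hρ (Ideal.Quotient.mk Q b)
    rw [Ideal.Quotient.stabilizerHom_apply] at h1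
    have h2 : φ (Ideal.Quotient.mk Q b) = Ideal.Quotient.mk Q (σ₁ • b) := rfl
    rw [h2] at h1
    rw [← Ideal.Quotient.eq]
    exact h1.symm
  have hρinvQ : (ρ : Γ)⁻¹ • Q = Q := by
    conv_lhs => rw [← hρQ]
    rw [inv_smul_smul]
  refine ⟨(ρ : Γ)⁻¹ * σ₁, ?_, ?_⟩
  · rw [mem_inertiaIn_iff ℓ hℓ A hA]
    refine ⟨?_, ?_⟩
    · rw [← smul_primeOf_eq_iff ℓ hℓ A hA, mul_smul, hσ₁Q, hρinvQ]
    · intro b hb
      have h1 := hρb ⟨b, hb⟩
      have h2 : (ρ : Γ)⁻¹ • (σ₁ • (⟨b, hb⟩ : Ob) - (ρ : Γ) • (⟨b, hb⟩ : Ob)) ∈ (ρ : Γ)⁻¹ • Q :=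
        Ideal.smul_mem_pointwise_smul _ _ _ h1
      rw [hρinvQ, mem_primeOf] at h2
      have h3 : (((ρ : Γ)⁻¹ • (σ₁ • (⟨b, hb⟩ : Ob) - (ρ : Γ) • (⟨b, hb⟩ : Ob)) : Ob) : Qb)
          = ((ρ : Γ)⁻¹ * σ₁) b - b := by
        simp [smul_sub]
      rw [h3] at h2
      exact h2
  · intro x
    rw [AlgEquiv.mul_apply, hσ₁x]
    exact (ρ⁻¹).2 ⟨_, (τ x).2⟩

end Lift


/-- Every maximal ideal of a subring of `Qb` containing the rational prime `ℓ` is cut out by a
valuation subring lying over `ℓ`. -/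
theorem exists_valuationSubring_of_isMaximal (R : Subring Qb) (I : Ideal R) (hI : I.IsMaximal)
    (ℓ : ℕ) (hℓI : ∃ r ∈ I, (r : Qb) = (ℓ : Qb)) :
    ∃ A : ValuationSubring Qb, A.LiesOverPrime ℓ ∧ ∀ x : R, x ∈ I ↔ (x : Qb) ∈ A.nonunits := by
  obtain ⟨B, hRB, hB⟩ := Ideal.image_subset_nonunits_valuationSubring I hI.ne_top
  refine ⟨B, ?_, fun x => ⟨fun hx => hB ⟨x, hx, rfl⟩, fun hx => ?_⟩⟩
  · obtain ⟨r, hr, hrℓ⟩ := hℓI
    have : (r : Qb) ∈ B.nonunits := hB ⟨r, hr, rfl⟩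
    rw [hrℓ] at this
    exact this
  · by_contra hxI
    obtain ⟨y, q, hq, hyq⟩ := hI.exists_inv hxI
    have h1 : ((y * x + q : R) : Qb) ∈ B.nonunits := by
      rw [Subring.coe_add, Subring.coe_mul]
      exact add_mem (mul_mem_nonunits B (hRB y.2) hx) (hB ⟨q, hq, rfl⟩)
    rw [hyq, Subring.coe_one] at h1
    exact one_not_mem_nonunits B h1

end Fermat.Agent.S14.Frob.ValuationLift
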