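import Fermat.Agent.S14.Defs

/-!
# S14 / theory `Frob` (T2, owner helper18): implementation file `Basic`
Proofs of the elementary lemmas of `Frob/API.lean` (same names, namespace `...Frob.Impl`).
-/

set_option autoImplicit false
set_option linter.unusedSectionVars false
set_option linter.unusedVariables false

namespace Fermat.Agent.S14.Frob.Impl

open NumberField
open scoped Pointwise

section Basic

variable (F M : Type*) [Field F] [NumberField F] [Field M] [NumberField M] [Algebra F M]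
  [IsGalois F M]

/-- A nonzero prime of a ring of integers has finite quotient. -/
theorem finite_quotient_of_ne_bot (Q : Ideal (𝓞 M)) (hQ0 : Q ≠ ⊥) : Finite (𝓞 M ⧸ Q) :=
  Ideal.finiteQuotientOfFreeOfNeBot Q hQ0

/-- (A1) Frobenius elements exist at every nonzero prime. -/
theorem exists_isArithFrobAt (Q : Ideal (𝓞 M)) (hQ : Q.IsPrime) (hQ0 : Q ≠ ⊥) :
    ∃ τ : M ≃ₐ[F] M, IsArithFrobAt (𝓞 F) τ Q := by
  have := finite_quotient_of_ne_bot M Q hQ0
  exact IsArithFrobAt.exists_of_isInvariant (𝓞 F) (M ≃ₐ[F] M) Q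

/-- (A2) Unfolding `IsArithFrobAt` when `Q` lies over `q` (the form used in `Iface/Reciprocity`). -/
theorem isArithFrobAt_iff (τ : M ≃ₐ[F] M) (q : Ideal (𝓞 F)) (Q : Ideal (𝓞 M)) [hQq : Q.LiesOver q] :
    IsArithFrobAt (𝓞 F) τ Q ↔ ∀ x : 𝓞 M, τ • x - x ^ Nat.card (𝓞 F ⧸ q) ∈ Q := by
  rw [hQq.over]
  rfl

/-- (A3) A Frobenius element lies in the decomposition group. -/
theorem isArithFrobAt_mem_stabilizer (Q : Ideal (𝓞 M)) (hQ : Q.IsPrime) {τ : M ≃ₐ[F] M}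
    (h : IsArithFrobAt (𝓞 F) τ Q) : τ ∈ MulAction.stabilizer (M ≃ₐ[F] M) Q :=
  h.mem_stabilizer

/-- (A4) Uniqueness of the Frobenius element at an unramified prime. -/
theorem isArithFrobAt_unique (Q : Ideal (𝓞 M)) (hunr : UnramifiedAt F M Q) {τ τ' : M ≃ₐ[F] M}
    (h : IsArithFrobAt (𝓞 F) τ Q) (h' : IsArithFrobAt (𝓞 F) τ' Q) : τ = τ' := by
  have := h.mul_inv_mem_inertia h'
  rw [hunr, Subgroup.mem_bot] at this
  exact mul_inv_eq_one.mp this

/-- (A5) Conjugation: `g τ g⁻¹` is a Frobenius at `g • Q`. -/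
theorem isArithFrobAt_conj (Q : Ideal (𝓞 M)) {τ : M ≃ₐ[F] M}
    (h : IsArithFrobAt (𝓞 F) τ Q) (g : M ≃ₐ[F] M) :
    IsArithFrobAt (𝓞 F) (g * τ * g⁻¹) (g • Q) :=
  h.conj g

/-- (A6) The Galois group acts transitively on the primes above a given prime. -/
theorem exists_smul_eq (q : Ideal (𝓞 F)) (Q Q' : Ideal (𝓞 M)) (hQ : Q.IsPrime) (hQ' : Q'.IsPrime)
    [Q.LiesOver q] [Q'.LiesOver q] : ∃ g : M ≃ₐ[F] M, g • Q = Q' :=
  Ideal.exists_smul_eq_of_isGaloisGroup q Q Q' (M ≃ₐ[F] M)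

/-- (A7) Abelian case: a Frobenius at one prime above `q` is a Frobenius at every prime above `q`. -/
theorem isArithFrobAt_of_liesOver_of_comm (hcomm : ∀ a b : M ≃ₐ[F] M, a * b = b * a)
    (q : Ideal (𝓞 F)) (Q Q' : Ideal (𝓞 M)) (hQ : Q.IsPrime) (hQ' : Q'.IsPrime)
    [Q.LiesOver q] [Q'.LiesOver q] {τ : M ≃ₐ[F] M}
    (h : IsArithFrobAt (𝓞 F) τ Q) : IsArithFrobAt (𝓞 F) τ Q' := by
  obtain ⟨g, rfl⟩ := exists_smul_eq F M q Q Q' hQ hQ'
  have := h.conj g
  rwa [hcomm g τ, mul_inv_cancel_right] at this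

/-- (A10) Trivial decomposition group ⇒ unramified and the Frobenius is trivial. -/
theorem unramifiedAt_of_stabilizer_eq_bot (Q : Ideal (𝓞 M))
    (h : MulAction.stabilizer (M ≃ₐ[F] M) Q = ⊥) : UnramifiedAt F M Q := by
  have := Ideal.inertia_le_stabilizer (M := M ≃ₐ[F] M) Q
  rw [h] at this
  exact le_bot_iff.mp this

theorem isArithFrobAt_one_of_stabilizer_eq_bot (Q : Ideal (𝓞 M)) (hQ : Q.IsPrime) (hQ0 : Q ≠ ⊥)
    (h : MulAction.stabilizer (M ≃ₐ[F] M) Q = ⊥) : IsArithFrobAt (𝓞 F) (1 : M ≃ₐ[F] M) Q := by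
  obtain ⟨τ, hτ⟩ := exists_isArithFrobAt F M Q hQ hQ0
  have := hτ.mem_stabilizer
  rw [h, Subgroup.mem_bot] at this
  rwa [this] at hτ

/-- (A15) Frobenius on roots of unity of order prime to the residue characteristic. -/
theorem isArithFrobAt_apply_of_pow_eq_one (Q : Ideal (𝓞 M)) (hQ : Q.IsPrime) {τ : M ≃ₐ[F] M}
    (h : IsArithFrobAt (𝓞 F) τ Q) (ζ : M) (m : ℕ) (hζ : ζ ^ m = 1) (hm : (m : 𝓞 M) ∉ Q) :
    τ ζ = ζ ^ Nat.card (𝓞 F ⧸ Q.under (𝓞 F)) := by
  have hm0 : m ≠ 0 := by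
    rintro rfl
    exact hm (by simp)
  have hint : IsIntegral ℤ ζ := by
    refine ⟨Polynomial.X ^ m - 1, Polynomial.monic_X_pow_sub_C 1 hm0, ?_⟩
    simp [hζ]
  let ζ' : 𝓞 M := ⟨ζ, hint⟩
  have hζ' : ζ' ^ m = 1 := by
    apply RingOfIntegers.ext
    show (algebraMap (𝓞 M) M) (ζ' ^ m) = (algebraMap (𝓞 M) M) 1
    rw [map_pow, map_one]
    exact hζ
  have key := AlgHom.IsArithFrobAt.apply_of_pow_eq_one h hζ' hm
  have := congrArg (fun x : 𝓞 M => (x : M)) key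
  exact this

/-- (A22) Decomposition groups of conjugate primes are conjugate. -/
theorem stabilizer_smul (g : M ≃ₐ[F] M) (Q : Ideal (𝓞 M)) (τ : M ≃ₐ[F] M) :
    τ ∈ MulAction.stabilizer (M ≃ₐ[F] M) (g • Q) ↔
      g⁻¹ * τ * g ∈ MulAction.stabilizer (M ≃ₐ[F] M) Q := by
  rw [MulAction.mem_stabilizer_iff, MulAction.mem_stabilizer_iff, mul_smul, mul_smul,
    inv_smul_eq_iff]

/-- (A19) If one prime above `q` has trivial decomposition group, `q` splits completely. -/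
theorem splitsCompletely_of_stabilizer_eq_bot (q : Ideal (𝓞 F)) (Q : Ideal (𝓞 M)) (hQ : Q.IsPrime)
    [Q.LiesOver q] (h : MulAction.stabilizer (M ≃ₐ[F] M) Q = ⊥) : SplitsCompletely F M q := by
  intro Q' hQ' hQ'q
  obtain ⟨g, rfl⟩ := exists_smul_eq F M q Q Q' hQ hQ'
  rw [eq_bot_iff]
  intro τ hτ
  rw [stabilizer_smul, h, Subgroup.mem_bot] at hτ
  rw [Subgroup.mem_bot]
  have : τ = g * (g⁻¹ * τ * g) * g⁻¹ := by group
  rw [this, hτ]; group

/-- (A20) If `q` splits completely then `M/F` is unramified at every prime above `q`. -/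
theorem unramifiedAt_of_splitsCompletely (q : Ideal (𝓞 F)) (h : SplitsCompletely F M q)
    (Q : Ideal (𝓞 M)) (hQ : Q.IsPrime) (hQq : Q.LiesOver q) : UnramifiedAt F M Q :=
  unramifiedAt_of_stabilizer_eq_bot F M Q (h Q hQ hQq)

/-- (A23) Inertia groups of conjugate primes are conjugate; in particular `UnramifiedAt` is
invariant under the Galois action. -/
theorem unramifiedAt_smul (g : M ≃ₐ[F] M) (Q : Ideal (𝓞 M)) (h : UnramifiedAt F M Q) :
    UnramifiedAt F M (g • Q) := by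
  unfold UnramifiedAt at h ⊢
  rw [eq_bot_iff]
  intro σ hσ
  rw [Subgroup.mem_bot]
  have h1 : g⁻¹ * σ * g ∈ Q.inertia (M ≃ₐ[F] M) := by
    intro x
    have h2 : σ • g • x - g • x ∈ g • Q := hσ (g • x)
    have h3 : (g⁻¹ * σ * g) • x - x = g⁻¹ • (σ • (g • x) - g • x) := by
      simp [mul_smul, smul_sub]
    rw [h3]
    show g⁻¹ • (σ • g • x - g • x) ∈ Q
    rw [← Ideal.smul_mem_pointwise_smul_iff (a := g), smul_inv_smul]
    exact h2
  rw [h, Subgroup.mem_bot] at h1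
  have : σ = g * (g⁻¹ * σ * g) * g⁻¹ := by group
  rw [this, h1]; group

end Basic

end Fermat.Agent.S14.Frob.Impl
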