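import Fermat.Agent.S14.Frob.Basic

/-!
# S14 / theory `Frob` (T2): implementation file `Card` (A8, A9, A11, A12)
-/

set_option autoImplicit false
set_option linter.unusedSectionVars false
set_option linter.unusedVariables false

namespace Fermat.Agent.S14.Frob.Impl

open NumberField
open scoped Pointwise

section Basic

variable (F M : Type*) [Field F] [NumberField F] [Field M] [NumberField M] [Algebra F M]
  [IsGalois F M]

/-- In a finite field in which every element satisfies `y ^ m = y` (`1 < m`), there are at most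
`m` elements. -/
theorem card_le_of_forall_pow_eq_self (K : Type*) [Field K] [Finite K] (m : ℕ) (hm : 1 < m)
    (h : ∀ y : K, y ^ m = y) : Nat.card K ≤ m := by
  classical
  have := Fintype.ofFinite K
  have hne : (Polynomial.X ^ m - Polynomial.X : Polynomial K) ≠ 0 :=
    FiniteField.X_pow_card_sub_X_ne_zero K hm
  have hsub : (Finset.univ : Finset K).val ⊆
      (Polynomial.X ^ m - Polynomial.X : Polynomial K).roots := by
    intro y _
    rw [Polynomial.mem_roots hne]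
    simp [h y]
  have := Polynomial.card_le_degree_of_subset_roots hsub
  rw [FiniteField.X_pow_card_sub_X_natDegree_eq K hm] at this
  rw [Nat.card_eq_fintype_card]
  simpa using this

/-- Iterating the Frobenius congruence. -/
theorem card_pow_smul_sub_mem (Q : Ideal (𝓞 M)) (hQ : Q.IsPrime) {τ : M ≃ₐ[F] M}
    (h : IsArithFrobAt (𝓞 F) τ Q) (k : ℕ) (x : 𝓞 M) :
    (τ ^ k) • x - x ^ (Nat.card (𝓞 F ⧸ Q.under (𝓞 F)) ^ k) ∈ Q := by
  induction k generalizing x with
  | zero => simp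
  | succ k ih =>
    have h1 : (τ ^ (k + 1)) • x = (τ ^ k) • (τ • x) := by
      rw [pow_succ, mul_smul]
    have h2 := ih (τ • x)
    have h3 : τ • x - x ^ Nat.card (𝓞 F ⧸ Q.under (𝓞 F)) ∈ Q := h x
    rw [h1]
    rw [← Ideal.Quotient.eq] at h2 h3 ⊢
    rw [h2, map_pow, h3, map_pow, map_pow, ← pow_mul, pow_succ']

/-- The cardinality of the decomposition group at an unramified prime is the inertia degree. -/
theorem card_stabilizer_eq_inertiaDeg (Q : Ideal (𝓞 M)) (hQ : Q.IsPrime) (hQ0 : Q ≠ ⊥)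
    (hunr : UnramifiedAt F M Q) :
    Nat.card (MulAction.stabilizer (M ≃ₐ[F] M) Q) = Q.inertiaDeg (𝓞 F) := by
  have hq0 : Q.under (𝓞 F) ≠ ⊥ := by
    intro hbot
    exact hQ0 (Ideal.eq_bot_of_comap_eq_bot hbot)
  have : (Q.under (𝓞 F)).IsPrime := Ideal.IsPrime.under (𝓞 F) Q
  have : (Q.under (𝓞 F)).IsMaximal := Ideal.IsPrime.isMaximal inferInstance hq0
  have : Finite (𝓞 F ⧸ Q.under (𝓞 F)) := Ideal.finiteQuotientOfFreeOfNeBot _ hq0
  have : PerfectField (Q.under (𝓞 F)).ResidueField := inferInstance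
  have := Ideal.card_stabilizer_eq_card_inertia_mul_finrank (G := M ≃ₐ[F] M) (Q.under (𝓞 F)) Q
  rw [this]
  have h1 : Nat.card (Q.inertia (M ≃ₐ[F] M)) = 1 := by
    rw [show Q.inertia (M ≃ₐ[F] M) = ⊥ from hunr]
    exact Subgroup.card_bot
  rw [h1, one_mul]

/-- (A9) At an unramified prime the order of the Frobenius is the inertia degree. -/
theorem orderOf_eq_inertiaDeg (Q : Ideal (𝓞 M)) (hQ : Q.IsPrime) (hQ0 : Q ≠ ⊥)
    (hunr : UnramifiedAt F M Q) {τ : M ≃ₐ[F] M} (h : IsArithFrobAt (𝓞 F) τ Q) :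
    orderOf τ = Q.inertiaDeg (𝓞 F) := by
  have hq0 : Q.under (𝓞 F) ≠ ⊥ := by
    intro hbot
    exact hQ0 (Ideal.eq_bot_of_comap_eq_bot hbot)
  have : (Q.under (𝓞 F)).IsPrime := Ideal.IsPrime.under (𝓞 F) Q
  have : (Q.under (𝓞 F)).IsMaximal := Ideal.IsPrime.isMaximal inferInstance hq0
  have : Q.IsMaximal := Ideal.IsPrime.isMaximal hQ hQ0
  have : Finite (𝓞 F ⧸ Q.under (𝓞 F)) := Ideal.finiteQuotientOfFreeOfNeBot _ hq0
  have : Finite (𝓞 M ⧸ Q) := Ideal.finiteQuotientOfFreeOfNeBot _ hQ0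
  have hcard := card_stabilizer_eq_inertiaDeg F M Q hQ hQ0 hunr
  set N := Nat.card (𝓞 F ⧸ Q.under (𝓞 F)) with hN
  set f := Q.inertiaDeg (𝓞 F) with hf
  have hN1 : 1 < N := by
    let : Field (𝓞 F ⧸ Q.under (𝓞 F)) := Ideal.Quotient.field _
    exact Finite.one_lt_card
  have hfpos : 0 < f := by
    rw [← hcard]; exact Nat.card_pos
  -- order divides `f`
  have hmem : τ ∈ MulAction.stabilizer (M ≃ₐ[F] M) Q := h.mem_stabilizer
  have hdvd : orderOf τ ∣ f := by
    have := orderOf_dvd_natCard (⟨τ, hmem⟩ : MulAction.stabilizer (M ≃ₐ[F] M) Q)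
    rw [hcard] at this
    rwa [← Subgroup.orderOf_mk τ hmem]
  have hkpos : 0 < orderOf τ := Nat.pos_of_dvd_of_pos hdvd hfpos
  -- `f ≤` order
  have hcardQ : N ^ f = Nat.card (𝓞 M ⧸ Q) := by
    have := Ideal.cardQuot_pow_inertiaDeg (Q.under (𝓞 F)) Q
    simpa [Submodule.cardQuot_apply] using this
  have hle : f ≤ orderOf τ := by
    let : Field (𝓞 M ⧸ Q) := Ideal.Quotient.field _
    have hall : ∀ y : 𝓞 M ⧸ Q, y ^ (N ^ orderOf τ) = y := by
      intro y
      obtain ⟨x, rfl⟩ := Ideal.Quotient.mk_surjective y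
      have := card_pow_smul_sub_mem F M Q hQ h (orderOf τ) x
      rw [pow_orderOf_eq_one, one_smul, ← Ideal.Quotient.eq] at this
      rw [← map_pow]
      exact this.symm
    have := card_le_of_forall_pow_eq_self (𝓞 M ⧸ Q) (N ^ orderOf τ)
      (Nat.one_lt_pow hkpos.ne' hN1) hall
    rw [← hcardQ] at this
    exact (Nat.pow_le_pow_iff_right hN1).mp this
  exact le_antisymm (Nat.le_of_dvd hfpos hdvd) hle

/-- (A8) At an unramified prime the decomposition group is generated by the Frobenius. -/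
theorem stabilizer_eq_zpowers (Q : Ideal (𝓞 M)) (hQ : Q.IsPrime) (hQ0 : Q ≠ ⊥)
    (hunr : UnramifiedAt F M Q) {τ : M ≃ₐ[F] M} (h : IsArithFrobAt (𝓞 F) τ Q) :
    MulAction.stabilizer (M ≃ₐ[F] M) Q = Subgroup.zpowers τ := by
  have hmem : τ ∈ MulAction.stabilizer (M ≃ₐ[F] M) Q := h.mem_stabilizer
  have hle : Subgroup.zpowers τ ≤ MulAction.stabilizer (M ≃ₐ[F] M) Q :=
    (Subgroup.zpowers_le).mpr hmem
  symm
  apply Subgroup.eq_of_le_of_card_ge hle
  rw [Nat.card_zpowers, orderOf_eq_inertiaDeg F M Q hQ hQ0 hunr h,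
    card_stabilizer_eq_inertiaDeg F M Q hQ hQ0 hunr]

/-- (A11) Unramified with trivial Frobenius ⇒ trivial decomposition group. -/
theorem stabilizer_eq_bot_of_isArithFrobAt_one (Q : Ideal (𝓞 M)) (hQ : Q.IsPrime) (hQ0 : Q ≠ ⊥)
    (hunr : UnramifiedAt F M Q) (h : IsArithFrobAt (𝓞 F) (1 : M ≃ₐ[F] M) Q) :
    MulAction.stabilizer (M ≃ₐ[F] M) Q = ⊥ := by
  rw [stabilizer_eq_zpowers F M Q hQ hQ0 hunr h, Subgroup.zpowers_one_eq_bot]

/-- (A12) `SplitsCompletely` in terms of inertia and Frobenius (for `q ≠ ⊥`). -/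
theorem splitsCompletely_iff (q : Ideal (𝓞 F)) (hq0 : q ≠ ⊥) :
    SplitsCompletely F M q ↔ ∀ Q : Ideal (𝓞 M), Q.IsPrime → Q.LiesOver q →
      (UnramifiedAt F M Q ∧ IsArithFrobAt (𝓞 F) (1 : M ≃ₐ[F] M) Q) := by
  have hne : ∀ Q : Ideal (𝓞 M), Q.LiesOver q → Q ≠ ⊥ := by
    rintro Q hQq rfl
    apply hq0
    rw [hQq.over, Ideal.under_def]
    exact Ideal.comap_bot_of_injective _ (FaithfulSMul.algebraMap_injective (𝓞 F) (𝓞 M))
  constructor
  · intro hs Q hQ hQq
    exact ⟨unramifiedAt_of_stabilizer_eq_bot F M Q (hs Q hQ hQq),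
      isArithFrobAt_one_of_stabilizer_eq_bot F M Q hQ (hne Q hQq) (hs Q hQ hQq)⟩
  · intro hs Q hQ hQq
    obtain ⟨h1, h2⟩ := hs Q hQ hQq
    exact stabilizer_eq_bot_of_isArithFrobAt_one F M Q hQ (hne Q hQq) h1 h2

end Basic

end Fermat.Agent.S14.Frob.Impl
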