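import Fermat.Agent.S14.Frob.Card

/-!
# S14 / theory `Frob` (T2): implementation file `Exponent` (A16, A17, A18)
-/

set_option autoImplicit false
set_option linter.unusedSectionVars false
set_option linter.unusedVariables false

namespace Fermat.Agent.S14.Frob.Impl

open NumberField
open scoped Pointwise

section Basic

variable (F M : Type*) [Field F] [NumberField F] [Field M] [NumberField M] [Algebra F M]
  [IsGalois F M]

/-- The Galois group has prime order `p`. -/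
theorem exp_card {p : ℕ} (hdeg : Module.finrank F M = p) : Nat.card (M ≃ₐ[F] M) = p := by
  rw [IsGalois.card_aut_eq_finrank, hdeg]

theorem exp_orderOf {p : ℕ} [Fact p.Prime] (hdeg : Module.finrank F M = p)
    (σ : M ≃ₐ[F] M) (hσ : σ ≠ 1) : orderOf σ = p := by
  refine orderOf_eq_prime ?_ hσ
  rw [← exp_card F M hdeg]
  exact pow_card_eq_one'

theorem exp_exists_pow {p : ℕ} [Fact p.Prime] (hdeg : Module.finrank F M = p)
    (σ : M ≃ₐ[F] M) (hσ : σ ≠ 1) (τ : M ≃ₐ[F] M) : ∃ k : ZMod p, τ = σ ^ k.val := by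
  have hp : p ≠ 0 := (Fact.out : p.Prime).ne_zero
  have : NeZero p := ⟨hp⟩
  have : Finite (M ≃ₐ[F] M) := Nat.finite_of_card_ne_zero (by rw [exp_card F M hdeg]; exact hp)
  have htop := zpowers_eq_top_of_prime_card (exp_card F M hdeg) hσ
  have hmem : τ ∈ Subgroup.zpowers σ := by rw [htop]; exact Subgroup.mem_top τ
  rw [← mem_powers_iff_mem_zpowers] at hmem
  obtain ⟨n, rfl⟩ := hmem
  refine ⟨(n : ZMod p), ?_⟩
  show σ ^ n = σ ^ (n : ZMod p).val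
  rw [ZMod.val_natCast, ← exp_orderOf F M hdeg σ hσ, pow_mod_orderOf]

theorem exp_comm {p : ℕ} [Fact p.Prime] (hdeg : Module.finrank F M = p)
    (σ : M ≃ₐ[F] M) (hσ : σ ≠ 1) (a b : M ≃ₐ[F] M) : a * b = b * a := by
  obtain ⟨k, rfl⟩ := exp_exists_pow F M hdeg σ hσ a
  obtain ⟨l, rfl⟩ := exp_exists_pow F M hdeg σ hσ b
  rw [← pow_add, ← pow_add, add_comm]

theorem exp_val_eq {p : ℕ} [Fact p.Prime] (hdeg : Module.finrank F M = p)
    (σ : M ≃ₐ[F] M) (hσ : σ ≠ 1) (a b : ZMod p) (h : σ ^ a.val = σ ^ b.val) : a = b := by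
  have : NeZero p := ⟨(Fact.out : p.Prime).ne_zero⟩
  apply ZMod.val_injective p
  have ho := exp_orderOf F M hdeg σ hσ
  refine pow_injOn_Iio_orderOf (x := σ) ?_ ?_ h
  · rw [ho]; exact ZMod.val_lt a
  · rw [ho]; exact ZMod.val_lt b

/-- (A16) Frobenius exponents: for `M/F` Galois of prime degree `p`, unramified everywhere, and a
generator `σ ≠ 1`, there is a function `e` on ideals such that `σ ^ e q` is the Frobenius at every
prime `Q` above every nonzero prime `q` (exactly the hypothesis `hfrob` of `Iface/Reciprocity`). -/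
theorem exists_frobExponent {p : ℕ} [Fact p.Prime] (hdeg : Module.finrank F M = p)
    (hunr : UnramifiedEverywhere F M) (σ : M ≃ₐ[F] M) (hσ : σ ≠ 1) :
    ∃ e : Ideal (𝓞 F) → ZMod p, ∀ q : Ideal (𝓞 F), q.IsPrime → q ≠ ⊥ →
      ∀ Q : Ideal (𝓞 M), Q.IsPrime → Q.LiesOver q →
        ∀ x : 𝓞 M, (σ ^ (e q).val) • x - x ^ Nat.card (𝓞 F ⧸ q) ∈ Q := by
  classical
  have hcomm := exp_comm F M hdeg σ hσ
  have key : ∀ q : Ideal (𝓞 F), ∃ k : ZMod p, q.IsPrime → q ≠ ⊥ →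
      ∀ Q : Ideal (𝓞 M), Q.IsPrime → Q.LiesOver q →
        ∀ x : 𝓞 M, (σ ^ k.val) • x - x ^ Nat.card (𝓞 F ⧸ q) ∈ Q := by
    intro q
    by_cases hq : q.IsPrime ∧ q ≠ ⊥
    · obtain ⟨hqp, hq0⟩ := hq
      obtain ⟨⟨Q₀, hQ₀, hQ₀q⟩⟩ := (inferInstance : Nonempty (Ideal.primesOver q (𝓞 M)))
      have hQ₀0 : Q₀ ≠ ⊥ := Ideal.ne_bot_of_liesOver_of_ne_bot hq0 Q₀
      obtain ⟨τ, hτ⟩ := exists_isArithFrobAt F M Q₀ hQ₀ hQ₀0
      obtain ⟨k, rfl⟩ := exp_exists_pow F M hdeg σ hσ τ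
      refine ⟨k, fun _ _ Q hQ hQq => ?_⟩
      have := isArithFrobAt_of_liesOver_of_comm F M hcomm q Q₀ Q hQ₀ hQ hτ
      exact (isArithFrobAt_iff F M _ q Q).mp this
    · exact ⟨0, fun h1 h2 => absurd ⟨h1, h2⟩ hq⟩
  choose e he using key
  exact ⟨e, he⟩

/-- (A17) The Frobenius exponent at `q` is unique. -/
theorem frobExponent_unique {p : ℕ} [Fact p.Prime] (hdeg : Module.finrank F M = p)
    (hunr : UnramifiedEverywhere F M) (σ : M ≃ₐ[F] M) (hσ : σ ≠ 1)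
    (q : Ideal (𝓞 F)) (hq : q.IsPrime) (hq0 : q ≠ ⊥) (Q : Ideal (𝓞 M)) (hQ : Q.IsPrime)
    [Q.LiesOver q] (a b : ZMod p)
    (ha : ∀ x : 𝓞 M, (σ ^ a.val) • x - x ^ Nat.card (𝓞 F ⧸ q) ∈ Q)
    (hb : ∀ x : 𝓞 M, (σ ^ b.val) • x - x ^ Nat.card (𝓞 F ⧸ q) ∈ Q) : a = b := by
  have hQ0 : Q ≠ ⊥ := Ideal.ne_bot_of_liesOver_of_ne_bot hq0 Q
  have h1 := (isArithFrobAt_iff F M (σ ^ a.val) q Q).mpr ha
  have h2 := (isArithFrobAt_iff F M (σ ^ b.val) q Q).mpr hb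
  exact exp_val_eq F M hdeg σ hσ a b (isArithFrobAt_unique F M Q (hunr Q hQ hQ0) h1 h2)

/-- (A18) The Frobenius exponent vanishes exactly at the primes that split completely. -/
theorem frobExponent_eq_zero_iff {p : ℕ} [Fact p.Prime] (hdeg : Module.finrank F M = p)
    (hunr : UnramifiedEverywhere F M) (σ : M ≃ₐ[F] M) (hσ : σ ≠ 1)
    (q : Ideal (𝓞 F)) (hq : q.IsPrime) (hq0 : q ≠ ⊥) (a : ZMod p)
    (ha : ∀ Q : Ideal (𝓞 M), Q.IsPrime → Q.LiesOver q →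
      ∀ x : 𝓞 M, (σ ^ a.val) • x - x ^ Nat.card (𝓞 F ⧸ q) ∈ Q) :
    a = 0 ↔ SplitsCompletely F M q := by
  constructor
  · rintro rfl Q hQ hQq
    have hQ0 : Q ≠ ⊥ := Ideal.ne_bot_of_liesOver_of_ne_bot hq0 Q
    have h := ha Q hQ hQq
    rw [ZMod.val_zero, pow_zero] at h
    have h1 := (isArithFrobAt_iff F M (1 : M ≃ₐ[F] M) q Q).mpr h
    exact stabilizer_eq_bot_of_isArithFrobAt_one F M Q hQ hQ0 (hunr Q hQ hQ0) h1
  · intro hs
    obtain ⟨⟨Q, hQ, hQq⟩⟩ := (inferInstance : Nonempty (Ideal.primesOver q (𝓞 M)))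
    have h1 := (isArithFrobAt_iff F M (σ ^ a.val) q Q).mpr (ha Q hQ hQq)
    have h2 := isArithFrobAt_mem_stabilizer F M Q hQ h1
    rw [hs Q hQ hQq, Subgroup.mem_bot] at h2
    apply exp_val_eq F M hdeg σ hσ
    rw [h2, ZMod.val_zero, pow_zero]

end Basic

end Fermat.Agent.S14.Frob.Impl
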