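import Fermat.Agent.S14.Frob.PrincipalSum

/-!
# S14 / theory `Frob` (T2): implementation file `Norm` (E1)
-/

set_option autoImplicit false
set_option linter.unusedSectionVars false
set_option linter.unusedVariables false

namespace Fermat.Agent.S14.Frob.Impl

open NumberField
open scoped Pointwise

section Norm

variable (F M : Type*) [Field F] [NumberField F] [Field M] [NumberField M] [Algebra F M]

/-- The relative norm of a nonzero prime `Q` is `(Q ∩ 𝓞 F) ^ f`. -/
theorem norm_relNorm_prime (Q : Ideal (𝓞 M)) (hQ : Q.IsPrime) (hQ0 : Q ≠ ⊥) :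
    (Q.under (𝓞 F)).IsPrime ∧ Q.under (𝓞 F) ≠ ⊥ ∧
      Ideal.relNorm (𝓞 F) Q = (Q.under (𝓞 F)) ^ (Q.inertiaDeg (𝓞 F)) := by
  have hQmax : Q.IsMaximal := Ring.DimensionLEOne.maximalOfPrime hQ0 hQ
  have hp : (Q.under (𝓞 F)).IsPrime := Ideal.IsPrime.under (𝓞 F) Q
  have hp0 : Q.under (𝓞 F) ≠ ⊥ := by
    intro h
    exact hQ0 (Ideal.eq_bot_of_comap_eq_bot h)
  have hpmax : (Q.under (𝓞 F)).IsMaximal := Ring.DimensionLEOne.maximalOfPrime hp0 hp
  exact ⟨hp, hp0, Ideal.relNorm_eq_pow_of_isMaximal Q (Q.under (𝓞 F))⟩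

/-- Factorisation of the relative norm of a product of nonzero primes. -/
theorem norm_normalizedFactors_relNorm_prod (s : Multiset (Ideal (𝓞 M)))
    (hs : ∀ Q ∈ s, Q.IsPrime ∧ Q ≠ ⊥) :
    UniqueFactorizationMonoid.normalizedFactors (Ideal.relNorm (𝓞 F) s.prod) =
      s.bind (fun Q => Multiset.replicate (Q.inertiaDeg (𝓞 F)) (Q.under (𝓞 F))) := by
  induction s using Multiset.induction_on with
  | empty =>
    rw [Multiset.prod_zero, map_one, UniqueFactorizationMonoid.normalizedFactors_one,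
      Multiset.zero_bind]
  | cons Q s ih =>
    have hQ := hs Q (Multiset.mem_cons_self Q s)
    have hs' : ∀ Q ∈ s, Q.IsPrime ∧ Q ≠ ⊥ := fun Q' h => hs Q' (Multiset.mem_cons_of_mem h)
    obtain ⟨hp, hp0, hrel⟩ := norm_relNorm_prime F M Q hQ.1 hQ.2
    have hsprod : s.prod ≠ 0 := by
      rw [Ne, Multiset.prod_eq_zero_iff]
      intro h
      exact (hs' _ h).2 rfl
    have h1 : Ideal.relNorm (𝓞 F) Q ≠ 0 := by
      rw [Ne, Ideal.zero_eq_bot, Ideal.relNorm_eq_bot_iff]
      exact hQ.2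
    have h2 : Ideal.relNorm (𝓞 F) s.prod ≠ 0 := by
      rw [Ne, Ideal.zero_eq_bot, Ideal.relNorm_eq_bot_iff]
      exact hsprod
    rw [Multiset.prod_cons, map_mul, UniqueFactorizationMonoid.normalizedFactors_mul h1 h2,
      ih hs', Multiset.cons_bind, hrel, UniqueFactorizationMonoid.normalizedFactors_pow,
      UniqueFactorizationMonoid.normalizedFactors_irreducible
        (Ideal.prime_of_isPrime hp0 hp).irreducible, normalize_eq, Multiset.nsmul_singleton]

/-- (E1) The prime factorisation of `(N_{M/F} y)` is the push-down of that of `(y)`, each prime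
`Q` contributing `f(Q | Q ∩ 𝓞 F)` times the prime below. -/
theorem principalSum_intNorm {A : Type*} [AddCommMonoid A] (e : Ideal (𝓞 F) → A) (y : 𝓞 M)
    (hy : y ≠ 0) :
    principalSum F e (Algebra.intNorm (𝓞 F) (𝓞 M) y) =
      principalSum M (fun Q => (Q.inertiaDeg (𝓞 F)) • e (Q.under (𝓞 F))) y := by
  have hI : Ideal.span {y} ≠ (⊥ : Ideal (𝓞 M)) := by
    simpa [Ideal.span_singleton_eq_bot] using hy
  have hs : ∀ Q ∈ UniqueFactorizationMonoid.normalizedFactors (Ideal.span {y} : Ideal (𝓞 M)),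
      Q.IsPrime ∧ Q ≠ ⊥ := by
    intro Q hQ
    exact ⟨((Ideal.mem_normalizedFactors_iff hI).mp hQ).1,
      UniqueFactorizationMonoid.ne_zero_of_mem_normalizedFactors hQ⟩
  have key := norm_normalizedFactors_relNorm_prod F M _ hs
  rw [Ideal.prod_normalizedFactors_eq_self hI, Ideal.relNorm_singleton] at key
  unfold principalSum
  rw [key, Multiset.map_bind, Multiset.sum_bind]
  congr 1
  refine Multiset.map_congr rfl fun Q _ => ?_
  simp [Multiset.map_replicate, Multiset.sum_replicate]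

end Norm

end Fermat.Agent.S14.Frob.Impl
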