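import Fermat.Agent.S14.Defs

/-!
# S14 / theory `Frob` (T2): implementation file `PrincipalSum` (P1–P7)
-/

set_option autoImplicit false
set_option linter.unusedSectionVars false
set_option linter.unusedVariables false

namespace Fermat.Agent.S14.Frob.Impl

open NumberField
open scoped Pointwise

section PrincipalSum

variable (F : Type*) [Field F] [NumberField F] {A : Type*} [AddCommMonoid A]

/-- (P1) `principalSum` is additive on products of nonzero elements. -/
theorem principalSum_mul (e : Ideal (𝓞 F) → A) (x y : 𝓞 F) (hx : x ≠ 0) (hy : y ≠ 0) :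
    principalSum F e (x * y) = principalSum F e x + principalSum F e y := by
  unfold principalSum
  have hx' : Ideal.span {x} ≠ 0 := by
    rw [Ne, Ideal.zero_eq_bot, Ideal.span_singleton_eq_bot]; exact hx
  have hy' : Ideal.span {y} ≠ 0 := by
    rw [Ne, Ideal.zero_eq_bot, Ideal.span_singleton_eq_bot]; exact hy
  rw [← Ideal.span_singleton_mul_span_singleton,
    UniqueFactorizationMonoid.normalizedFactors_mul hx' hy', Multiset.map_add, Multiset.sum_add]

/-- (P2) `principalSum` vanishes on units. -/
theorem principalSum_of_isUnit (e : Ideal (𝓞 F) → A) (u : 𝓞 F) (hu : IsUnit u) :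
    principalSum F e u = 0 := by
  unfold principalSum
  rw [Ideal.span_singleton_eq_top.mpr hu, ← Ideal.one_eq_top,
    UniqueFactorizationMonoid.normalizedFactors_one, Multiset.map_zero, Multiset.sum_zero]

/-- (P3) `principalSum` of a power. -/
theorem principalSum_pow (e : Ideal (𝓞 F) → A) (x : 𝓞 F) (hx : x ≠ 0) (n : ℕ) :
    principalSum F e (x ^ n) = n • principalSum F e x := by
  unfold principalSum
  rw [← Ideal.span_singleton_pow, UniqueFactorizationMonoid.normalizedFactors_pow,
    Multiset.map_nsmul, Multiset.sum_nsmul]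

/-- (P4) If `(y)` is a product of (not necessarily distinct) nonzero primes, `principalSum` is the
sum of the values of `e` at these primes. -/
theorem principalSum_of_span_eq_prod (e : Ideal (𝓞 F) → A) (y : 𝓞 F) {ι : Type*} (s : Finset ι)
    (Q : ι → Ideal (𝓞 F)) (hQ : ∀ i ∈ s, (Q i).IsPrime ∧ Q i ≠ ⊥)
    (h : Ideal.span {y} = ∏ i ∈ s, Q i) : principalSum F e y = ∑ i ∈ s, e (Q i) := by
  unfold principalSum
  rw [h]
  clear h
  classical
  induction s using Finset.induction_on with
  | empty =>
    rw [Finset.prod_empty, UniqueFactorizationMonoid.normalizedFactors_one]; simp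
  | insert a s ha ih =>
    have hQa := hQ a (Finset.mem_insert_self a s)
    have hQs : ∀ i ∈ s, (Q i).IsPrime ∧ Q i ≠ ⊥ := fun i hi => hQ i (Finset.mem_insert_of_mem hi)
    have hprime : Prime (Q a) := @Ideal.prime_of_isPrime _ _ _ (Q a) hQa.2 hQa.1
    have hprod : (∏ i ∈ s, Q i) ≠ 0 := by
      rw [Finset.prod_ne_zero_iff]
      intro i hi
      exact (hQs i hi).2
    rw [Finset.prod_insert ha, Finset.sum_insert ha,
      UniqueFactorizationMonoid.normalizedFactors_mul hQa.2 hprod,
      UniqueFactorizationMonoid.normalizedFactors_irreducible hprime.irreducible,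
      normalize_eq, Multiset.map_add, Multiset.sum_add, ih hQs]
    simp

/-- (P5) `principalSum` as a finite sum over the prime factors with multiplicities. -/
theorem principalSum_eq_sum_count [DecidableEq (Ideal (𝓞 F))] (e : Ideal (𝓞 F) → A) (y : 𝓞 F) :
    principalSum F e y =
      ∑ q ∈ (UniqueFactorizationMonoid.normalizedFactors (Ideal.span {y})).toFinset,
        (UniqueFactorizationMonoid.normalizedFactors (Ideal.span {y})).count q • e q := by
  unfold principalSum
  rw [Finset.sum_multiset_map_count]

/-- (P6) The prime factors occurring in `principalSum` are exactly the primes containing `y`. -/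
theorem mem_normalizedFactors_span_iff (y : 𝓞 F) (hy : y ≠ 0) (q : Ideal (𝓞 F)) :
    q ∈ UniqueFactorizationMonoid.normalizedFactors (Ideal.span {y}) ↔
      q.IsPrime ∧ q ≠ ⊥ ∧ y ∈ q := by
  have hy' : Ideal.span {y} ≠ ⊥ := by
    rw [Ne, Ideal.span_singleton_eq_bot]; exact hy
  rw [Ideal.mem_normalizedFactors_iff hy', Ideal.span_singleton_le_iff_mem]
  constructor
  · rintro ⟨hq, hyq⟩
    refine ⟨hq, ?_, hyq⟩
    rintro rfl
    exact hy (by simpa using hyq)
  · rintro ⟨hq, -, hyq⟩
    exact ⟨hq, hyq⟩

/-- (P7) If `e` and `e'` agree on all primes containing `y`, the principal sums agree. -/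
theorem principalSum_congr (e e' : Ideal (𝓞 F) → A) (y : 𝓞 F) (hy : y ≠ 0)
    (h : ∀ q : Ideal (𝓞 F), q.IsPrime → q ≠ ⊥ → y ∈ q → e q = e' q) :
    principalSum F e y = principalSum F e' y := by
  unfold principalSum
  congr 1
  apply Multiset.map_congr rfl
  intro q hq
  obtain ⟨h1, h2, h3⟩ := (mem_normalizedFactors_span_iff F y hy q).mp hq
  exact h q h1 h2 h3

end PrincipalSum

end Fermat.Agent.S14.Frob.Impl
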