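import Fermat.Agent.S14.Frob.Basic

/-!
# S14 / theory `Frob` (T2): implementation file `Split` (A13, A14, A21)
-/

set_option autoImplicit false
set_option linter.unusedSectionVars false
set_option linter.unusedVariables false

namespace Fermat.Agent.S14.Frob.Impl

open NumberField
open scoped Pointwise

section Basic

variable (F M : Type*) [Field F] [NumberField F] [Field M] [NumberField M] [Algebra F M]
  [IsGalois F M]

/-- Auxiliary: the decomposition group has order `e * f` (in terms of the inertia group). -/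
theorem split_card_stabilizer (q : Ideal (𝓞 F)) (hq : q.IsPrime) (hq0 : q ≠ ⊥)
    (Q : Ideal (𝓞 M)) (hQ : Q.IsPrime) [Q.LiesOver q] :
    Nat.card (MulAction.stabilizer (M ≃ₐ[F] M) Q) =
      Nat.card (Q.inertia (M ≃ₐ[F] M)) * Q.inertiaDeg (𝓞 F) := by
  have := Ideal.finiteQuotientOfFreeOfNeBot q hq0
  exact Ideal.card_stabilizer_eq_card_inertia_mul_finrank (G := M ≃ₐ[F] M) q Q

/-- Auxiliary: trivial decomposition group forces inertia degree one. -/
theorem split_inertiaDeg_eq_one (q : Ideal (𝓞 F)) (hq : q.IsPrime) (hq0 : q ≠ ⊥)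
    (Q : Ideal (𝓞 M)) (hQ : Q.IsPrime) [Q.LiesOver q]
    (h : MulAction.stabilizer (M ≃ₐ[F] M) Q = ⊥) : Q.inertiaDeg (𝓞 F) = 1 := by
  have h1 := split_card_stabilizer F M q hq hq0 Q hQ
  rw [h, Subgroup.card_bot] at h1
  exact Nat.eq_one_of_mul_eq_one_left h1.symm

/-- (A13) If `q ≠ ⊥` splits completely there are exactly `[M:F]` primes above it. -/
theorem ncard_primesOver_of_splitsCompletely (q : Ideal (𝓞 F)) (hq : q.IsPrime) (hq0 : q ≠ ⊥)
    (h : SplitsCompletely F M q) : (q.primesOver (𝓞 M)).ncard = Module.finrank F M := by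
  have := Ideal.finiteQuotientOfFreeOfNeBot q hq0
  obtain ⟨Q, hQ, hQq⟩ : (q.primesOver (𝓞 M)).Nonempty := Set.Nonempty.of_subtype
  have hstab := h Q hQ hQq
  have hf := split_inertiaDeg_eq_one F M q hq hq0 Q hQ hstab
  have hI : Q.inertia (M ≃ₐ[F] M) = ⊥ := unramifiedAt_of_stabilizer_eq_bot F M Q hstab
  have key := Ideal.ncard_primesOver_mul_card_inertia_mul_finrank (G := M ≃ₐ[F] M) q Q
  rw [hf, hI, Subgroup.card_bot, mul_one, mul_one, IsGalois.card_aut_eq_finrank] at key
  exact key

/-- (A14) If `q` splits completely, every prime `Q` above it has residue field of the same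
cardinality. -/
theorem card_quotient_of_splitsCompletely (q : Ideal (𝓞 F)) (hq : q.IsPrime) (hq0 : q ≠ ⊥)
    (h : SplitsCompletely F M q) (Q : Ideal (𝓞 M)) (hQ : Q.IsPrime) [Q.LiesOver q] :
    Nat.card (𝓞 M ⧸ Q) = Nat.card (𝓞 F ⧸ q) := by
  have hf := split_inertiaDeg_eq_one F M q hq hq0 Q hQ (h Q hQ inferInstance)
  have key := Ideal.absNorm_pow_inertiaDeg q Q
  rw [hf, pow_one, Ideal.absNorm_apply, Ideal.absNorm_apply, Submodule.cardQuot_apply,
    Submodule.cardQuot_apply] at key
  exact key.symm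

/-- (A21) A degree-one prime `P` of `M` at which `M/F` is unramified lies over a prime of `F`
that splits completely. -/
theorem splitsCompletely_under_of_absNorm_prime (P : Ideal (𝓞 M)) (hP : P.IsPrime)
    (hN : (Ideal.absNorm P).Prime) (hunr : UnramifiedAt F M P) :
    SplitsCompletely F M (P.under (𝓞 F)) := by
  have hP0 : P ≠ ⊥ := by
    rintro rfl
    rw [Ideal.absNorm_bot] at hN
    exact Nat.not_prime_zero hN
  have hp : (P.under (𝓞 F)).IsPrime := inferInstance
  have hp0 : P.under (𝓞 F) ≠ ⊥ := by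
    intro h0
    have hover : P.LiesOver (⊥ : Ideal (𝓞 F)) := ⟨h0.symm⟩
    exact hP0 (Ideal.eq_bot_of_liesOver_bot (𝓞 F) P)
  have key := Ideal.absNorm_pow_inertiaDeg (P.under (𝓞 F)) P
  have hf : P.inertiaDeg (𝓞 F) = 1 := by
    rw [← key] at hN
    exact Nat.Prime.eq_one_of_pow hN
  have h1 := split_card_stabilizer F M (P.under (𝓞 F)) hp hp0 P hP
  have hI : P.inertia (M ≃ₐ[F] M) = ⊥ := hunr
  rw [hf, hI, Subgroup.card_bot, mul_one] at h1
  exact splitsCompletely_of_stabilizer_eq_bot F M (P.under (𝓞 F)) P hP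
    (Subgroup.card_eq_one.mp h1)

end Basic

end Fermat.Agent.S14.Frob.Impl
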