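import Fermat.Agent.S14.Frob.Basic

set_option autoImplicit false
set_option linter.unusedSectionVars false
set_option linter.unusedVariables false

namespace Fermat.Agent.S14.Frob.Impl

open NumberField
open scoped Pointwise

section Tower

variable (F N M : Type*) [Field F] [NumberField F] [Field N] [NumberField N]
  [Field M] [NumberField M] [Algebra F N] [Algebra N M] [Algebra F M] [IsScalarTower F N M]
  [IsGalois F M] [IsGalois N M]

/-- (C1) Restriction: the restriction to a Galois subextension `N/F` of a Frobenius of `M/F`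
at `Q` is a Frobenius of `N/F` at `Q ∩ 𝓞 N`. -/
theorem isArithFrobAt_restrictNormal [IsGalois F N] (Q : Ideal (𝓞 M)) (hQ : Q.IsPrime)
    {τ : M ≃ₐ[F] M} (h : IsArithFrobAt (𝓞 F) τ Q) :
    IsArithFrobAt (𝓞 F) (τ.restrictNormal N) (Q.under (𝓞 N)) := by
  have hu : (Q.under (𝓞 N)).under (𝓞 F) = Q.under (𝓞 F) := Ideal.under_under Q
  show ∀ x : 𝓞 N, (τ.restrictNormal N) • x
      - x ^ Nat.card (𝓞 F ⧸ (Q.under (𝓞 N)).under (𝓞 F)) ∈ Q.under (𝓞 N)
  intro x
  rw [hu, Ideal.under_def, Ideal.mem_comap, map_sub, map_pow]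
  have hx : algebraMap (𝓞 N) (𝓞 M) ((τ.restrictNormal N) • x) = τ • algebraMap (𝓞 N) (𝓞 M) x := by
    apply RingOfIntegers.ext
    exact AlgEquiv.restrictNormal_commutes τ N (x : N)
  rw [hx]
  exact h (algebraMap (𝓞 N) (𝓞 M) x)

theorem tw_pow_mem (Q : Ideal (𝓞 M))
    {τ : M ≃ₐ[F] M} (h : IsArithFrobAt (𝓞 F) τ Q) (k : ℕ) (x : 𝓞 M) :
    (τ ^ k) • x - x ^ (Nat.card (𝓞 F ⧸ Q.under (𝓞 F)) ^ k) ∈ Q := by
  induction k generalizing x with
  | zero => simp
  | succ k ih =>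
    have h1 := ih (τ • x)
    have h2 : τ • x - x ^ Nat.card (𝓞 F ⧸ Q.under (𝓞 F)) ∈ Q := h x
    have h3 : (τ • x) ^ (Nat.card (𝓞 F ⧸ Q.under (𝓞 F)) ^ k)
        - (x ^ Nat.card (𝓞 F ⧸ Q.under (𝓞 F))) ^ (Nat.card (𝓞 F ⧸ Q.under (𝓞 F)) ^ k) ∈ Q :=
      Ideal.mem_of_dvd Q (sub_dvd_pow_sub_pow _ _ _) h2
    have h4 := Q.add_mem h1 h3
    rw [pow_succ τ, mul_smul, pow_succ', pow_mul]
    convert h4 using 1
    ring

/-- (C2) Base change: if `τ ∈ Gal(M/F)` is a Frobenius at `Q` and the residue field of `Q ∩ 𝓞 N`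
has `(N q)^f` elements, then `τ^f` (if it fixes `N`, i.e. equals some `τ' ∈ Gal(M/N)`) is a
Frobenius of `M/N` at `Q`. -/
theorem isArithFrobAt_of_pow (Q : Ideal (𝓞 M)) (hQ : Q.IsPrime)
    {τ : M ≃ₐ[F] M} (h : IsArithFrobAt (𝓞 F) τ Q) (τ' : M ≃ₐ[N] M) (f : ℕ)
    (hf : Nat.card (𝓞 N ⧸ Q.under (𝓞 N)) = Nat.card (𝓞 F ⧸ Q.under (𝓞 F)) ^ f)
    (hτ' : ∀ x : M, τ' x = (τ ^ f) x) : IsArithFrobAt (𝓞 N) τ' Q := by
  show ∀ x : 𝓞 M, τ' • x - x ^ Nat.card (𝓞 N ⧸ Q.under (𝓞 N)) ∈ Q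
  intro x
  have hx : τ' • x = (τ ^ f) • x := by
    apply RingOfIntegers.ext
    exact hτ' (x : M)
  rw [hx, hf]
  exact tw_pow_mem F M Q h f x

/-- (C3) Inertia restricts: an element of the inertia group of `Q` in `M/N`, viewed in `Gal(M/F)`,
lies in the inertia group of `Q` in `M/F`; hence `M/F` unramified at `Q` ⇒ `M/N` unramified at `Q`. -/
theorem unramifiedAt_of_tower (Q : Ideal (𝓞 M)) (hunr : UnramifiedAt F M Q) :
    UnramifiedAt N M Q := by
  unfold UnramifiedAt at hunr ⊢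
  rw [eq_bot_iff]
  intro σ hσ
  have h1 : σ.restrictScalars F ∈ Q.inertia (M ≃ₐ[F] M) := by
    intro x
    have hx : (σ.restrictScalars F) • x = σ • x := RingOfIntegers.ext rfl
    rw [hx]
    exact hσ x
  rw [hunr, Subgroup.mem_bot] at h1
  rw [Subgroup.mem_bot]
  ext x
  have := congrArg (fun g : M ≃ₐ[F] M => g x) h1
  simpa using this

end Tower

section Compositum

variable (K L F M : Type*) [Field K] [NumberField K] [Field L] [NumberField L]
  [Field F] [NumberField F] [Field M] [NumberField M]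
  [Algebra K L] [Algebra K F] [Algebra L M] [Algebra F M] [Algebra K M]
  [IsScalarTower K L M] [IsScalarTower K F M] [IsGalois K L] [IsGalois F M]

/-- (C4) Base change of an unramified extension: if `M = L·F` in the sense that an element of
`Gal(M/F)` fixing `L` pointwise is trivial, and `L/K` is unramified at `Q ∩ 𝓞 L`, then `M/F` is
unramified at `Q`. -/
theorem unramifiedAt_of_compositum
    (hinj : ∀ τ : M ≃ₐ[F] M, (∀ x : L, τ (algebraMap L M x) = algebraMap L M x) → τ = 1)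
    (Q : Ideal (𝓞 M)) (hQ : Q.IsPrime) (hunr : UnramifiedAt K L (Q.under (𝓞 L))) :
    UnramifiedAt F M Q := by
  unfold UnramifiedAt at hunr ⊢
  rw [eq_bot_iff]
  intro τ hτ
  rw [Subgroup.mem_bot]
  have h1 : (τ.restrictScalars K).restrictNormal L ∈ (Q.under (𝓞 L)).inertia (L ≃ₐ[K] L) := by
    intro x
    show algebraMap (𝓞 L) (𝓞 M) (((τ.restrictScalars K).restrictNormal L) • x - x) ∈ Q
    rw [map_sub]
    have hx : algebraMap (𝓞 L) (𝓞 M) (((τ.restrictScalars K).restrictNormal L) • x)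
        = τ • algebraMap (𝓞 L) (𝓞 M) x := by
      apply RingOfIntegers.ext
      exact AlgEquiv.restrictNormal_commutes (τ.restrictScalars K) L (x : L)
    rw [hx]
    exact hτ _
  rw [hunr, Subgroup.mem_bot] at h1
  apply hinj
  intro x
  have := AlgEquiv.restrictNormal_commutes (τ.restrictScalars K) L x
  rw [h1] at this
  simpa using this.symm

end Compositum

end Fermat.Agent.S14.Frob.Impl
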