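import Fermat.Agent.S14.Frob.Basic

/-!
# S14 / theory `Frob` (T2): implementation file `Transport` (B1, B2)
-/

set_option autoImplicit false
set_option linter.unusedSectionVars false
set_option linter.unusedVariables false

namespace Fermat.Agent.S14.Frob.Impl

open NumberField
open scoped Pointwise

section Transport

variable (F₀ F M : Type*) [Field F₀] [NumberField F₀] [Field F] [NumberField F]
  [Field M] [NumberField M] [Algebra F₀ F] [Algebra F M] [Algebra F₀ M] [IsScalarTower F₀ F M]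
  [IsGalois F₀ F] [IsGalois F₀ M] [IsGalois F M]

/-- The compatibility of the actions on rings of integers with restriction to `F`. -/
theorem tr_algebraMap_restrictNormal_smul (g : M ≃ₐ[F₀] M) (x : 𝓞 F) :
    algebraMap (𝓞 F) (𝓞 M) ((g.restrictNormal F) • x) = g • algebraMap (𝓞 F) (𝓞 M) x := by
  apply RingOfIntegers.ext
  exact AlgEquiv.restrictNormal_commutes g F (x : F)

theorem tr_mem_under_smul_iff (g : M ≃ₐ[F₀] M) (Q : Ideal (𝓞 M)) (x : 𝓞 F) :
    (g.restrictNormal F) • x ∈ (g • Q).under (𝓞 F) ↔ x ∈ Q.under (𝓞 F) := by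
  rw [Ideal.under_def, Ideal.under_def, Ideal.mem_comap, Ideal.mem_comap,
    tr_algebraMap_restrictNormal_smul, Ideal.smul_mem_pointwise_smul_iff]

/-- (B2) `g • Q` lies over the image of `Q.under (𝓞 F)`; in particular residue cardinalities of
the primes below agree. -/
theorem card_quotient_under_smul (g : M ≃ₐ[F₀] M) (Q : Ideal (𝓞 M)) :
    Nat.card (𝓞 F ⧸ (g • Q).under (𝓞 F)) = Nat.card (𝓞 F ⧸ Q.under (𝓞 F)) := by
  let e : 𝓞 F ≃+* 𝓞 F := MulSemiringAction.toRingEquiv (F ≃ₐ[F₀] F) (𝓞 F) (g.restrictNormal F)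
  have he : ∀ x : 𝓞 F, e x = (g.restrictNormal F) • x := fun _ => rfl
  have hIJ : (g • Q).under (𝓞 F) = (Q.under (𝓞 F)).map (e : 𝓞 F →+* 𝓞 F) := by
    ext y
    constructor
    · intro hy
      refine (Ideal.mem_map_of_equiv e y).2 ⟨e.symm y, ?_, e.apply_symm_apply y⟩
      rw [← tr_mem_under_smul_iff F₀ F M g Q, ← he, e.apply_symm_apply]
      exact hy
    · intro hy
      obtain ⟨x, hx, rfl⟩ := (Ideal.mem_map_of_equiv e y).1 hy
      rw [he]
      exact (tr_mem_under_smul_iff F₀ F M g Q x).2 hx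
  exact (Nat.card_congr (Ideal.quotientEquiv _ _ e hIJ).toEquiv).symm

/-- (B1) Transport by the bigger Galois group: if `τ ∈ Gal(M/F)` is a Frobenius at `Q`,
`g ∈ Gal(M/F₀)` and `τ' = g τ g⁻¹ ∈ Gal(M/F)`, then `τ'` is a Frobenius (for `M/F`) at `g • Q`. -/
theorem isArithFrobAt_conj_of_tower (g : M ≃ₐ[F₀] M) (τ τ' : M ≃ₐ[F] M)
    (hconj : ∀ x : M, τ' x = g (τ (g.symm x)))
    (Q : Ideal (𝓞 M)) (hQ : Q.IsPrime) (h : IsArithFrobAt (𝓞 F) τ Q) :
    IsArithFrobAt (𝓞 F) τ' (g • Q) := by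
  have h' : ∀ x : 𝓞 M, τ • x - x ^ Nat.card (𝓞 F ⧸ Q.under (𝓞 F)) ∈ Q := h
  show ∀ y : 𝓞 M, τ' • y - y ^ Nat.card (𝓞 F ⧸ (g • Q).under (𝓞 F)) ∈ g • Q
  intro y
  rw [card_quotient_under_smul F₀ F M g Q]
  have key : τ' • y - y ^ Nat.card (𝓞 F ⧸ Q.under (𝓞 F)) =
      g • (τ • (g⁻¹ • y) - (g⁻¹ • y) ^ Nat.card (𝓞 F ⧸ Q.under (𝓞 F))) := by
    rw [smul_sub, smul_pow', smul_inv_smul]
    congr 1
    apply RingOfIntegers.ext
    exact hconj (y : M)
  rw [key, Ideal.smul_mem_pointwise_smul_iff]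
  exact h' _

end Transport

end Fermat.Agent.S14.Frob.Impl
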