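import Fermat.Agent.S14.Defs
import Fermat.Agent.S14.Frob.Basic
import Fermat.Agent.S14.Frob.Card
import Fermat.Agent.S14.Frob.Split
import Fermat.Agent.S14.Frob.Exponent
import Fermat.Agent.S14.Frob.Transport
import Fermat.Agent.S14.Frob.Tower
import Fermat.Agent.S14.Frob.PrincipalSum
import Fermat.Agent.S14.Frob.Norm

/-!
# S14 / theory `Frob` (T2, owner helper18): Frobenius / decomposition / inertia / norm API

API for Galois extensions `M/F` of number fields, in the conventions of `Defs.lean`: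
the Galois group `M ≃ₐ[F] M` acts on `𝓞 M` and on `Ideal (𝓞 M)` (pointwise),
decomposition group = `MulAction.stabilizer (M ≃ₐ[F] M) Q`, inertia group = `Q.inertia (M ≃ₐ[F] M)`,
Frobenius elements = Mathlib's `IsArithFrobAt (𝓞 F) τ Q`
(i.e. `∀ x : 𝓞 M, τ • x - x ^ Nat.card (𝓞 F ⧸ Q.under (𝓞 F)) ∈ Q`).

STATEMENTS ARE PUBLISHED FOR CONSUMERS (T6, T7, T8, Thaine).  The proofs live in the implementation
files `Frob/{Basic,Card,Split,Exponent,Transport,Tower,PrincipalSum,Norm}.lean` (namespace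
`Fermat.Agent.S14.Frob.Impl`); this file re-exports them under stable names.
Consumers: import this file only; ask helper18 for additions.
-/

set_option autoImplicit false
set_option linter.unusedSectionVars false
set_option linter.unusedVariables false

namespace Fermat.Agent.S14.Frob

open NumberField
open scoped Pointwise

section Basic

variable (F M : Type*) [Field F] [NumberField F] [Field M] [NumberField M] [Algebra F M]
  [IsGalois F M]

/-- (A1) Frobenius elements exist at every nonzero prime. -/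
theorem exists_isArithFrobAt (Q : Ideal (𝓞 M)) (hQ : Q.IsPrime) (hQ0 : Q ≠ ⊥) :
    ∃ τ : M ≃ₐ[F] M, IsArithFrobAt (𝓞 F) τ Q :=
  Impl.exists_isArithFrobAt F M Q hQ hQ0

/-- (A2) Unfolding `IsArithFrobAt` when `Q` lies over `q` (the form used in `Iface/Reciprocity`). -/
theorem isArithFrobAt_iff (τ : M ≃ₐ[F] M) (q : Ideal (𝓞 F)) (Q : Ideal (𝓞 M)) [Q.LiesOver q] :
    IsArithFrobAt (𝓞 F) τ Q ↔ ∀ x : 𝓞 M, τ • x - x ^ Nat.card (𝓞 F ⧸ q) ∈ Q :=
  Impl.isArithFrobAt_iff F M τ q Q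

/-- (A3) A Frobenius element lies in the decomposition group. -/
theorem isArithFrobAt_mem_stabilizer (Q : Ideal (𝓞 M)) (hQ : Q.IsPrime) {τ : M ≃ₐ[F] M}
    (h : IsArithFrobAt (𝓞 F) τ Q) : τ ∈ MulAction.stabilizer (M ≃ₐ[F] M) Q :=
  Impl.isArithFrobAt_mem_stabilizer F M Q hQ h

/-- (A4) Uniqueness of the Frobenius element at an unramified prime. -/
theorem isArithFrobAt_unique (Q : Ideal (𝓞 M)) (hunr : UnramifiedAt F M Q) {τ τ' : M ≃ₐ[F] M}
    (h : IsArithFrobAt (𝓞 F) τ Q) (h' : IsArithFrobAt (𝓞 F) τ' Q) : τ = τ' :=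
  Impl.isArithFrobAt_unique F M Q hunr h h'

/-- (A5) Conjugation: `g τ g⁻¹` is a Frobenius at `g • Q`. -/
theorem isArithFrobAt_conj (Q : Ideal (𝓞 M)) {τ : M ≃ₐ[F] M}
    (h : IsArithFrobAt (𝓞 F) τ Q) (g : M ≃ₐ[F] M) :
    IsArithFrobAt (𝓞 F) (g * τ * g⁻¹) (g • Q) :=
  Impl.isArithFrobAt_conj F M Q h g

/-- (A6) The Galois group acts transitively on the primes above a given prime. -/
theorem exists_smul_eq (q : Ideal (𝓞 F)) (Q Q' : Ideal (𝓞 M)) (hQ : Q.IsPrime) (hQ' : Q'.IsPrime)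
    [Q.LiesOver q] [Q'.LiesOver q] : ∃ g : M ≃ₐ[F] M, g • Q = Q' :=
  Impl.exists_smul_eq F M q Q Q' hQ hQ'

/-- (A7) Abelian case: a Frobenius at one prime above `q` is a Frobenius at every prime above `q`. -/
theorem isArithFrobAt_of_liesOver_of_comm (hcomm : ∀ a b : M ≃ₐ[F] M, a * b = b * a)
    (q : Ideal (𝓞 F)) (Q Q' : Ideal (𝓞 M)) (hQ : Q.IsPrime) (hQ' : Q'.IsPrime)
    [Q.LiesOver q] [Q'.LiesOver q] {τ : M ≃ₐ[F] M}
    (h : IsArithFrobAt (𝓞 F) τ Q) : IsArithFrobAt (𝓞 F) τ Q' :=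
  Impl.isArithFrobAt_of_liesOver_of_comm F M hcomm q Q Q' hQ hQ' h

/-- (A8) At an unramified prime the decomposition group is generated by the Frobenius. -/
theorem stabilizer_eq_zpowers (Q : Ideal (𝓞 M)) (hQ : Q.IsPrime) (hQ0 : Q ≠ ⊥)
    (hunr : UnramifiedAt F M Q) {τ : M ≃ₐ[F] M} (h : IsArithFrobAt (𝓞 F) τ Q) :
    MulAction.stabilizer (M ≃ₐ[F] M) Q = Subgroup.zpowers τ :=
  Impl.stabilizer_eq_zpowers F M Q hQ hQ0 hunr h

/-- (A9) At an unramified prime the order of the Frobenius is the inertia degree. -/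
theorem orderOf_eq_inertiaDeg (Q : Ideal (𝓞 M)) (hQ : Q.IsPrime) (hQ0 : Q ≠ ⊥)
    (hunr : UnramifiedAt F M Q) {τ : M ≃ₐ[F] M} (h : IsArithFrobAt (𝓞 F) τ Q) :
    orderOf τ = Q.inertiaDeg (𝓞 F) :=
  Impl.orderOf_eq_inertiaDeg F M Q hQ hQ0 hunr h

/-- (A10) Trivial decomposition group ⇒ unramified and the Frobenius is trivial. -/
theorem unramifiedAt_of_stabilizer_eq_bot (Q : Ideal (𝓞 M))
    (h : MulAction.stabilizer (M ≃ₐ[F] M) Q = ⊥) : UnramifiedAt F M Q :=
  Impl.unramifiedAt_of_stabilizer_eq_bot F M Q h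

theorem isArithFrobAt_one_of_stabilizer_eq_bot (Q : Ideal (𝓞 M)) (hQ : Q.IsPrime) (hQ0 : Q ≠ ⊥)
    (h : MulAction.stabilizer (M ≃ₐ[F] M) Q = ⊥) : IsArithFrobAt (𝓞 F) (1 : M ≃ₐ[F] M) Q :=
  Impl.isArithFrobAt_one_of_stabilizer_eq_bot F M Q hQ hQ0 h

/-- (A11) Unramified with trivial Frobenius ⇒ trivial decomposition group. -/
theorem stabilizer_eq_bot_of_isArithFrobAt_one (Q : Ideal (𝓞 M)) (hQ : Q.IsPrime) (hQ0 : Q ≠ ⊥)
    (hunr : UnramifiedAt F M Q) (h : IsArithFrobAt (𝓞 F) (1 : M ≃ₐ[F] M) Q) :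
    MulAction.stabilizer (M ≃ₐ[F] M) Q = ⊥ :=
  Impl.stabilizer_eq_bot_of_isArithFrobAt_one F M Q hQ hQ0 hunr h

/-- (A12) `SplitsCompletely` in terms of inertia and Frobenius (for `q ≠ ⊥`). -/
theorem splitsCompletely_iff (q : Ideal (𝓞 F)) (hq0 : q ≠ ⊥) :
    SplitsCompletely F M q ↔ ∀ Q : Ideal (𝓞 M), Q.IsPrime → Q.LiesOver q →
      (UnramifiedAt F M Q ∧ IsArithFrobAt (𝓞 F) (1 : M ≃ₐ[F] M) Q) :=
  Impl.splitsCompletely_iff F M q hq0

/-- (A13) If `q ≠ ⊥` splits completely there are exactly `[M:F]` primes above it. -/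
theorem ncard_primesOver_of_splitsCompletely (q : Ideal (𝓞 F)) (hq : q.IsPrime) (hq0 : q ≠ ⊥)
    (h : SplitsCompletely F M q) : (q.primesOver (𝓞 M)).ncard = Module.finrank F M :=
  Impl.ncard_primesOver_of_splitsCompletely F M q hq hq0 h

/-- (A14) If `q` splits completely, every prime `Q` above it has residue field of the same
cardinality. -/
theorem card_quotient_of_splitsCompletely (q : Ideal (𝓞 F)) (hq : q.IsPrime) (hq0 : q ≠ ⊥)
    (h : SplitsCompletely F M q) (Q : Ideal (𝓞 M)) (hQ : Q.IsPrime) [Q.LiesOver q] :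
    Nat.card (𝓞 M ⧸ Q) = Nat.card (𝓞 F ⧸ q) :=
  Impl.card_quotient_of_splitsCompletely F M q hq hq0 h Q hQ

/-- (A15) Frobenius on roots of unity of order prime to the residue characteristic. -/
theorem isArithFrobAt_apply_of_pow_eq_one (Q : Ideal (𝓞 M)) (hQ : Q.IsPrime) {τ : M ≃ₐ[F] M}
    (h : IsArithFrobAt (𝓞 F) τ Q) (ζ : M) (m : ℕ) (hζ : ζ ^ m = 1) (hm : (m : 𝓞 M) ∉ Q) :
    τ ζ = ζ ^ Nat.card (𝓞 F ⧸ Q.under (𝓞 F)) :=
  Impl.isArithFrobAt_apply_of_pow_eq_one F M Q hQ h ζ m hζ hm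

/-- (A16) Frobenius exponents: for `M/F` Galois of prime degree `p`, unramified everywhere, and a
generator `σ ≠ 1`, there is a function `e` on ideals such that `σ ^ e q` is the Frobenius at every
prime `Q` above every nonzero prime `q` (exactly the hypothesis `hfrob` of `Iface/Reciprocity`). -/
theorem exists_frobExponent {p : ℕ} [Fact p.Prime] (hdeg : Module.finrank F M = p)
    (hunr : UnramifiedEverywhere F M) (σ : M ≃ₐ[F] M) (hσ : σ ≠ 1) :
    ∃ e : Ideal (𝓞 F) → ZMod p, ∀ q : Ideal (𝓞 F), q.IsPrime → q ≠ ⊥ →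
      ∀ Q : Ideal (𝓞 M), Q.IsPrime → Q.LiesOver q →
        ∀ x : 𝓞 M, (σ ^ (e q).val) • x - x ^ Nat.card (𝓞 F ⧸ q) ∈ Q :=
  Impl.exists_frobExponent F M hdeg hunr σ hσ

/-- (A17) The Frobenius exponent at `q` is unique. -/
theorem frobExponent_unique {p : ℕ} [Fact p.Prime] (hdeg : Module.finrank F M = p)
    (hunr : UnramifiedEverywhere F M) (σ : M ≃ₐ[F] M) (hσ : σ ≠ 1)
    (q : Ideal (𝓞 F)) (hq : q.IsPrime) (hq0 : q ≠ ⊥) (Q : Ideal (𝓞 M)) (hQ : Q.IsPrime)
    [Q.LiesOver q] (a b : ZMod p)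
    (ha : ∀ x : 𝓞 M, (σ ^ a.val) • x - x ^ Nat.card (𝓞 F ⧸ q) ∈ Q)
    (hb : ∀ x : 𝓞 M, (σ ^ b.val) • x - x ^ Nat.card (𝓞 F ⧸ q) ∈ Q) : a = b :=
  Impl.frobExponent_unique F M hdeg hunr σ hσ q hq hq0 Q hQ a b ha hb

/-- (A18) The Frobenius exponent vanishes exactly at the primes that split completely. -/
theorem frobExponent_eq_zero_iff {p : ℕ} [Fact p.Prime] (hdeg : Module.finrank F M = p)
    (hunr : UnramifiedEverywhere F M) (σ : M ≃ₐ[F] M) (hσ : σ ≠ 1)
    (q : Ideal (𝓞 F)) (hq : q.IsPrime) (hq0 : q ≠ ⊥) (a : ZMod p)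
    (ha : ∀ Q : Ideal (𝓞 M), Q.IsPrime → Q.LiesOver q →
      ∀ x : 𝓞 M, (σ ^ a.val) • x - x ^ Nat.card (𝓞 F ⧸ q) ∈ Q) :
    a = 0 ↔ SplitsCompletely F M q :=
  Impl.frobExponent_eq_zero_iff F M hdeg hunr σ hσ q hq hq0 a ha

/-- (A19) If one prime above `q` has trivial decomposition group, `q` splits completely. -/
theorem splitsCompletely_of_stabilizer_eq_bot (q : Ideal (𝓞 F)) (Q : Ideal (𝓞 M)) (hQ : Q.IsPrime)
    [Q.LiesOver q] (h : MulAction.stabilizer (M ≃ₐ[F] M) Q = ⊥) : SplitsCompletely F M q :=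
  Impl.splitsCompletely_of_stabilizer_eq_bot F M q Q hQ h

/-- (A20) If `q` splits completely then `M/F` is unramified at every prime above `q`. -/
theorem unramifiedAt_of_splitsCompletely (q : Ideal (𝓞 F)) (h : SplitsCompletely F M q)
    (Q : Ideal (𝓞 M)) (hQ : Q.IsPrime) (hQq : Q.LiesOver q) : UnramifiedAt F M Q :=
  Impl.unramifiedAt_of_splitsCompletely F M q h Q hQ hQq

/-- (A21) A degree-one prime `P` of `M` at which `M/F` is unramified lies over a prime of `F`
that splits completely. -/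
theorem splitsCompletely_under_of_absNorm_prime (P : Ideal (𝓞 M)) (hP : P.IsPrime)
    (hN : (Ideal.absNorm P).Prime) (hunr : UnramifiedAt F M P) :
    SplitsCompletely F M (P.under (𝓞 F)) :=
  Impl.splitsCompletely_under_of_absNorm_prime F M P hP hN hunr

/-- (A22) Decomposition groups of conjugate primes are conjugate. -/
theorem stabilizer_smul (g : M ≃ₐ[F] M) (Q : Ideal (𝓞 M)) (τ : M ≃ₐ[F] M) :
    τ ∈ MulAction.stabilizer (M ≃ₐ[F] M) (g • Q) ↔
      g⁻¹ * τ * g ∈ MulAction.stabilizer (M ≃ₐ[F] M) Q :=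
  Impl.stabilizer_smul F M g Q τ

/-- (A23) Inertia groups of conjugate primes are conjugate; in particular `UnramifiedAt` is
invariant under the Galois action. -/
theorem unramifiedAt_smul (g : M ≃ₐ[F] M) (Q : Ideal (𝓞 M)) (h : UnramifiedAt F M Q) :
    UnramifiedAt F M (g • Q) :=
  Impl.unramifiedAt_smul F M g Q h

end Basic

section Transport

variable (F₀ F M : Type*) [Field F₀] [NumberField F₀] [Field F] [NumberField F]
  [Field M] [NumberField M] [Algebra F₀ F] [Algebra F M] [Algebra F₀ M] [IsScalarTower F₀ F M]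
  [IsGalois F₀ F] [IsGalois F₀ M] [IsGalois F M]

/-- (B1) Transport by the bigger Galois group: if `τ ∈ Gal(M/F)` is a Frobenius at `Q`,
`g ∈ Gal(M/F₀)` and `τ' = g τ g⁻¹ ∈ Gal(M/F)`, then `τ'` is a Frobenius (for `M/F`) at `g • Q`. -/
theorem isArithFrobAt_conj_of_tower (g : M ≃ₐ[F₀] M) (τ τ' : M ≃ₐ[F] M)
    (hconj : ∀ x : M, τ' x = g (τ (g.symm x)))
    (Q : Ideal (𝓞 M)) (hQ : Q.IsPrime) (h : IsArithFrobAt (𝓞 F) τ Q) :
    IsArithFrobAt (𝓞 F) τ' (g • Q) :=
  Impl.isArithFrobAt_conj_of_tower F₀ F M g τ τ' hconj Q hQ h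

/-- (B2) `g • Q` lies over the image of `Q.under (𝓞 F)`; in particular residue cardinalities of
the primes below agree. -/
theorem card_quotient_under_smul (g : M ≃ₐ[F₀] M) (Q : Ideal (𝓞 M)) :
    Nat.card (𝓞 F ⧸ (g • Q).under (𝓞 F)) = Nat.card (𝓞 F ⧸ Q.under (𝓞 F)) :=
  Impl.card_quotient_under_smul F₀ F M g Q

end Transport

section Tower

variable (F N M : Type*) [Field F] [NumberField F] [Field N] [NumberField N]
  [Field M] [NumberField M] [Algebra F N] [Algebra N M] [Algebra F M] [IsScalarTower F N M]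
  [IsGalois F M] [IsGalois N M]

/-- (C1) Restriction: the restriction to a Galois subextension `N/F` of a Frobenius of `M/F`
at `Q` is a Frobenius of `N/F` at `Q ∩ 𝓞 N`. -/
theorem isArithFrobAt_restrictNormal [IsGalois F N] (Q : Ideal (𝓞 M)) (hQ : Q.IsPrime)
    {τ : M ≃ₐ[F] M} (h : IsArithFrobAt (𝓞 F) τ Q) :
    IsArithFrobAt (𝓞 F) (τ.restrictNormal N) (Q.under (𝓞 N)) :=
  Impl.isArithFrobAt_restrictNormal F N M Q hQ h

/-- (C2) Base change: if `τ ∈ Gal(M/F)` is a Frobenius at `Q` and the residue field of `Q ∩ 𝓞 N`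
has `(N q)^f` elements, then `τ^f` (if it fixes `N`, i.e. equals some `τ' ∈ Gal(M/N)`) is a
Frobenius of `M/N` at `Q`. -/
theorem isArithFrobAt_of_pow (Q : Ideal (𝓞 M)) (hQ : Q.IsPrime)
    {τ : M ≃ₐ[F] M} (h : IsArithFrobAt (𝓞 F) τ Q) (τ' : M ≃ₐ[N] M) (f : ℕ)
    (hf : Nat.card (𝓞 N ⧸ Q.under (𝓞 N)) = Nat.card (𝓞 F ⧸ Q.under (𝓞 F)) ^ f)
    (hτ' : ∀ x : M, τ' x = (τ ^ f) x) : IsArithFrobAt (𝓞 N) τ' Q :=
  Impl.isArithFrobAt_of_pow F N M Q hQ h τ' f hf hτ'

/-- (C3) Inertia restricts: an element of the inertia group of `Q` in `M/N`, viewed in `Gal(M/F)`,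
lies in the inertia group of `Q` in `M/F`; hence `M/F` unramified at `Q` ⇒ `M/N` unramified at `Q`. -/
theorem unramifiedAt_of_tower (Q : Ideal (𝓞 M)) (hunr : UnramifiedAt F M Q) :
    UnramifiedAt N M Q :=
  Impl.unramifiedAt_of_tower F N M Q hunr

end Tower

section Compositum

variable (K L F M : Type*) [Field K] [NumberField K] [Field L] [NumberField L]
  [Field F] [NumberField F] [Field M] [NumberField M]
  [Algebra K L] [Algebra K F] [Algebra L M] [Algebra F M] [Algebra K M]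
  [IsScalarTower K L M] [IsScalarTower K F M] [IsGalois K L] [IsGalois F M]

/-- (C4) Base change of an unramified extension: if `M = L·F` in the sense that an element of
`Gal(M/F)` fixing `L` pointwise is trivial, and `L/K` is unramified at `Q ∩ 𝓞 L`, then `M/F` is
unramified at `Q`. -/
theorem unramifiedAt_of_compositum
    (hinj : ∀ τ : M ≃ₐ[F] M, (∀ x : L, τ (algebraMap L M x) = algebraMap L M x) → τ = 1)
    (Q : Ideal (𝓞 M)) (hQ : Q.IsPrime) (hunr : UnramifiedAt K L (Q.under (𝓞 L))) :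
    UnramifiedAt F M Q :=
  Impl.unramifiedAt_of_compositum K L F M hinj Q hQ hunr

end Compositum

section Norm

variable (F M : Type*) [Field F] [NumberField F] [Field M] [NumberField M] [Algebra F M]

/-- (E1) The prime factorisation of `(N_{M/F} y)` is the push-down of that of `(y)`, each prime
`Q` contributing `f(Q | Q ∩ 𝓞 F)` times the prime below. -/
theorem principalSum_intNorm {A : Type*} [AddCommMonoid A] (e : Ideal (𝓞 F) → A) (y : 𝓞 M)
    (hy : y ≠ 0) :
    principalSum F e (Algebra.intNorm (𝓞 F) (𝓞 M) y) =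
      principalSum M (fun Q => (Q.inertiaDeg (𝓞 F)) • e (Q.under (𝓞 F))) y :=
  Impl.principalSum_intNorm F M e y hy

end Norm

section PrincipalSum

variable (F : Type*) [Field F] [NumberField F] {A : Type*} [AddCommMonoid A]

/-- (P1) `principalSum` is additive on products of nonzero elements. -/
theorem principalSum_mul (e : Ideal (𝓞 F) → A) (x y : 𝓞 F) (hx : x ≠ 0) (hy : y ≠ 0) :
    principalSum F e (x * y) = principalSum F e x + principalSum F e y :=
  Impl.principalSum_mul F e x y hx hy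

/-- (P2) `principalSum` vanishes on units. -/
theorem principalSum_of_isUnit (e : Ideal (𝓞 F) → A) (u : 𝓞 F) (hu : IsUnit u) :
    principalSum F e u = 0 :=
  Impl.principalSum_of_isUnit F e u hu

/-- (P3) `principalSum` of a power. -/
theorem principalSum_pow (e : Ideal (𝓞 F) → A) (x : 𝓞 F) (hx : x ≠ 0) (n : ℕ) :
    principalSum F e (x ^ n) = n • principalSum F e x :=
  Impl.principalSum_pow F e x hx n

/-- (P4) If `(y)` is a product of (not necessarily distinct) nonzero primes, `principalSum` is the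
sum of the values of `e` at these primes. -/
theorem principalSum_of_span_eq_prod (e : Ideal (𝓞 F) → A) (y : 𝓞 F) {ι : Type*} (s : Finset ι)
    (Q : ι → Ideal (𝓞 F)) (hQ : ∀ i ∈ s, (Q i).IsPrime ∧ Q i ≠ ⊥)
    (h : Ideal.span {y} = ∏ i ∈ s, Q i) : principalSum F e y = ∑ i ∈ s, e (Q i) :=
  Impl.principalSum_of_span_eq_prod F e y s Q hQ h

/-- (P5) `principalSum` as a finite sum over the prime factors with multiplicities. -/
theorem principalSum_eq_sum_count [DecidableEq (Ideal (𝓞 F))] (e : Ideal (𝓞 F) → A) (y : 𝓞 F) :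
    principalSum F e y =
      ∑ q ∈ (UniqueFactorizationMonoid.normalizedFactors (Ideal.span {y})).toFinset,
        (UniqueFactorizationMonoid.normalizedFactors (Ideal.span {y})).count q • e q :=
  Impl.principalSum_eq_sum_count F e y

/-- (P6) The prime factors occurring in `principalSum` are exactly the primes containing `y`. -/
theorem mem_normalizedFactors_span_iff (y : 𝓞 F) (hy : y ≠ 0) (q : Ideal (𝓞 F)) :
    q ∈ UniqueFactorizationMonoid.normalizedFactors (Ideal.span {y}) ↔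
      q.IsPrime ∧ q ≠ ⊥ ∧ y ∈ q :=
  Impl.mem_normalizedFactors_span_iff F y hy q

/-- (P7) If `e` and `e'` agree on all primes containing `y`, the principal sums agree. -/
theorem principalSum_congr (e e' : Ideal (𝓞 F) → A) (y : 𝓞 F) (hy : y ≠ 0)
    (h : ∀ q : Ideal (𝓞 F), q.IsPrime → q ≠ ⊥ → y ∈ q → e q = e' q) :
    principalSum F e y = principalSum F e' y :=
  Impl.principalSum_congr F e e' y hy h

end PrincipalSum

end Fermat.Agent.S14.Frob
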