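import Fermat.Agent.S14.Frob.API

/-!
# S14 / theory `Frob` (T2): implementation file `XGalois` (Extra X7, X9, X22, X10)
-/

set_option autoImplicit false
set_option linter.unusedSectionVars false
set_option linter.unusedVariables false

namespace Fermat.Agent.S14.Frob.Impl

open NumberField
open scoped Pointwise

section Galois

variable (F M : Type*) [Field F] [NumberField F] [Field M] [NumberField M] [Algebra F M]
  [IsGalois F M]

/-- (X7) If `q` splits completely, every prime above it has inertia degree one. -/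
theorem inertiaDeg_eq_one_of_splitsCompletely (q : Ideal (𝓞 F)) (h : SplitsCompletely F M q)
    (Q : Ideal (𝓞 M)) (hQ : Q.IsPrime) (hQ0 : Q ≠ ⊥) [Q.LiesOver q] :
    Q.inertiaDeg (𝓞 F) = 1 := by
  have hq : q.IsPrime := by
    rw [(Ideal.LiesOver.over : q = Q.under (𝓞 F))]
    infer_instance
  have hq0 : q ≠ ⊥ := by
    rintro rfl
    exact hQ0 (Ideal.eq_bot_of_liesOver_bot (𝓞 F) Q)
  exact split_inertiaDeg_eq_one F M q hq hq0 Q hQ (h Q hQ inferInstance)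

/-- (X9) `|D| = |I| · f`. -/
theorem card_stabilizer_eq_card_inertia_mul_inertiaDeg (Q : Ideal (𝓞 M)) (hQ : Q.IsPrime)
    (hQ0 : Q ≠ ⊥) :
    Nat.card (MulAction.stabilizer (M ≃ₐ[F] M) Q) =
      Nat.card (Q.inertia (M ≃ₐ[F] M)) * Q.inertiaDeg (𝓞 F) := by
  have hp : (Q.under (𝓞 F)).IsPrime := inferInstance
  have hp0 : Q.under (𝓞 F) ≠ ⊥ := by
    intro h0
    have hover : Q.LiesOver (⊥ : Ideal (𝓞 F)) := ⟨h0.symm⟩
    exact hQ0 (Ideal.eq_bot_of_liesOver_bot (𝓞 F) Q)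
  exact split_card_stabilizer F M (Q.under (𝓞 F)) hp hp0 Q hQ

/-- (X22) `|I| = e`. -/
theorem card_inertia_eq_ramificationIdx (Q : Ideal (𝓞 M)) (hQ : Q.IsPrime) (hQ0 : Q ≠ ⊥) :
    Nat.card (Q.inertia (M ≃ₐ[F] M)) = Q.ramificationIdx (𝓞 F) := by
  have hp : (Q.under (𝓞 F)).IsPrime := inferInstance
  have hp0 : Q.under (𝓞 F) ≠ ⊥ := by
    intro h0
    have hover : Q.LiesOver (⊥ : Ideal (𝓞 F)) := ⟨h0.symm⟩
    exact hQ0 (Ideal.eq_bot_of_liesOver_bot (𝓞 F) Q)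
  have := Ideal.finiteQuotientOfFreeOfNeBot (Q.under (𝓞 F)) hp0
  rw [Ideal.card_inertia_eq_ramificationIdxIn (G := M ≃ₐ[F] M) (Q.under (𝓞 F)) Q,
    Ideal.ramificationIdxIn_eq_ramificationIdx (Q.under (𝓞 F)) Q (M ≃ₐ[F] M)]

/-- (X10) Inertia fixes the roots of unity of order prime to the residue characteristic. -/
theorem apply_eq_of_mem_inertia_of_pow_eq_one (Q : Ideal (𝓞 M)) (hQ : Q.IsPrime)
    {τ : M ≃ₐ[F] M} (hτ : τ ∈ Q.inertia (M ≃ₐ[F] M)) (ζ : M) (m : ℕ) (hζ : ζ ^ m = 1)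
    (hm : (m : 𝓞 M) ∉ Q) : τ ζ = ζ := by
  have hm0 : m ≠ 0 := by
    rintro rfl
    exact hm (by simp)
  have hint : IsIntegral ℤ ζ := by
    refine ⟨Polynomial.X ^ m - 1, Polynomial.monic_X_pow_sub_C 1 hm0, ?_⟩
    simp [hζ]
  let ζ' : 𝓞 M := ⟨ζ, hint⟩
  have hζ' : ζ' ^ m = 1 := by
    apply RingOfIntegers.ext
    show (algebraMap (𝓞 M) M) (ζ' ^ m) = (algebraMap (𝓞 M) M) 1
    rw [map_pow, map_one]
    exact hζ
  have H : ∀ x : 𝓞 M, τ • x - x ∈ Q := hτ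
  obtain ⟨k, hk, hζk⟩ := IsPrimitiveRoot.exists_pos hζ' hm0
  have hk' : (k : 𝓞 M) ∉ Q := fun h ↦ hm (Q.mem_of_dvd (Nat.cast_dvd_cast (hζk.2 m hζ')) h)
  have : NeZero k := ⟨hk.ne'⟩
  obtain ⟨i, hi, e⟩ := hζk.eq_pow_of_pow_eq_one (ξ := τ • ζ') (by rw [← smul_pow', hζk.1, smul_one])
  have key : τ • ζ' = ζ' := by
    have (j : _) : 1 - ζ' ^ ((1 + k - i) * j) ∈ Q := by
      rw [← Ideal.mul_unit_mem_iff_mem _ ((hζk.isUnit NeZero.out).pow (i * j)),
        sub_mul, one_mul, ← pow_add, ← add_mul, tsub_add_cancel_of_le (by linarith), add_mul,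
          pow_add, pow_mul _ k, hζk.1, one_pow, mul_one, pow_mul, e, ← smul_pow', mul_comm, pow_mul,
          pow_one]
      exact H _
    have h₁ := sum_mem (t := Finset.range k) fun j _ ↦ this j
    have h₂ := geom_sum_mul (ζ' ^ (1 + k - i)) k
    rw [pow_right_comm, hζk.1, one_pow, sub_self, mul_eq_zero, sub_eq_zero] at h₂
    rcases h₂ with h₂ | h₂
    · simp [h₂, pow_mul, hk'] at h₁
    replace h₂ := congr($h₂ * ζ' ^ i)
    rw [one_mul, ← pow_add, tsub_add_cancel_of_le (by linarith), pow_add, hζk.1, mul_one,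
      pow_one] at h₂
    rw [← e]
    exact h₂.symm
  have := congrArg (fun x : 𝓞 M => (x : M)) key
  exact this

end Galois

end Fermat.Agent.S14.Frob.Impl
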