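import Fermat.Agent.S14.Frob.API

/-!
# S14 / theory `Frob` (T2): implementation file `XGeneral` (Extra X1–X6)
-/

set_option autoImplicit false
set_option linter.unusedSectionVars false
set_option linter.unusedVariables false

namespace Fermat.Agent.S14.Frob.Impl

open NumberField
open scoped Pointwise

section PrimesOfM

variable (M : Type*) [Field M] [NumberField M]

/-- (X5) Only finitely many primes contain a given nonzero integer. -/
theorem finite_setOf_isPrime_natCast_mem (n : ℕ) (hn : n ≠ 0) :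
    {Q : Ideal (𝓞 M) | Q.IsPrime ∧ (n : 𝓞 M) ∈ Q}.Finite := by
  classical
  have hn' : (n : 𝓞 M) ≠ 0 := Nat.cast_ne_zero.mpr hn
  refine Set.Finite.subset
    (UniqueFactorizationMonoid.normalizedFactors (Ideal.span {(n : 𝓞 M)})).toFinset.finite_toSet ?_
  rintro Q ⟨hQ, hmem⟩
  have hQ0 : Q ≠ ⊥ := by
    rintro rfl
    exact hn' (by simpa using hmem)
  simp only [Finset.mem_coe, Multiset.mem_toFinset]
  exact (Frob.mem_normalizedFactors_span_iff M _ hn' Q).mpr ⟨hQ, hQ0, hmem⟩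

end PrimesOfM

section General

variable (F M : Type*) [Field F] [NumberField F] [Field M] [NumberField M] [Algebra F M]

/-- (X1) The prime below a nonzero prime is nonzero. -/
theorem under_ne_bot (Q : Ideal (𝓞 M)) (hQ0 : Q ≠ ⊥) : Q.under (𝓞 F) ≠ ⊥ := by
  intro h
  exact hQ0 (Ideal.eq_bot_of_comap_eq_bot h)

/-- (X2) There is a prime above every prime. -/
theorem exists_isPrime_liesOver (q : Ideal (𝓞 F)) (hq : q.IsPrime) :
    ∃ Q : Ideal (𝓞 M), Q.IsPrime ∧ Q.LiesOver q := by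
  have := hq
  obtain ⟨⟨Q, hQ, hQq⟩⟩ := (inferInstance : Nonempty (Ideal.primesOver q (𝓞 M)))
  exact ⟨Q, hQ, hQq⟩

/-- (X2') A prime above a nonzero prime is nonzero. -/
theorem ne_bot_of_liesOver (q : Ideal (𝓞 F)) (hq0 : q ≠ ⊥) (Q : Ideal (𝓞 M)) [Q.LiesOver q] :
    Q ≠ ⊥ := by
  rintro rfl
  apply hq0
  rw [Ideal.LiesOver.over (p := q) (P := (⊥ : Ideal (𝓞 M)))]
  exact Ideal.under_bot (𝓞 F) (𝓞 M)

/-- (X3) `N Q = (N q) ^ f(Q | q)`. -/
theorem card_quotient_eq_pow_inertiaDeg (Q : Ideal (𝓞 M)) (hQ : Q.IsPrime) (hQ0 : Q ≠ ⊥) :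
    Nat.card (𝓞 M ⧸ Q) = Nat.card (𝓞 F ⧸ Q.under (𝓞 F)) ^ Q.inertiaDeg (𝓞 F) := by
  have := hQ
  have key := Ideal.absNorm_pow_inertiaDeg (Q.under (𝓞 F)) Q
  rw [Ideal.absNorm_apply, Ideal.absNorm_apply, Submodule.cardQuot_apply,
    Submodule.cardQuot_apply] at key
  exact key.symm

/-- (X4) A rational integer lies in `Q` iff it lies in the prime below. -/
theorem natCast_mem_under_iff (Q : Ideal (𝓞 M)) (n : ℕ) :
    (n : 𝓞 F) ∈ Q.under (𝓞 F) ↔ (n : 𝓞 M) ∈ Q := by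
  rw [Ideal.under_def, Ideal.mem_comap, map_natCast]

/-- (X6) The absolute norm of `(N_{M/F} y)` is that of `(y)`. -/
theorem absNorm_span_intNorm (y : 𝓞 M) :
    Ideal.absNorm (Ideal.span {Algebra.intNorm (𝓞 F) (𝓞 M) y}) = Ideal.absNorm (Ideal.span {y}) := by
  rw [← Ideal.relNorm_singleton, Ideal.absNorm_relNorm]

/-- (X6') `y ∈ Q ⇒ N_{M/F} y ∈ Q ∩ 𝓞 F`. -/
theorem intNorm_mem_under (Q : Ideal (𝓞 M)) (y : 𝓞 M) (hy : y ∈ Q) :
    Algebra.intNorm (𝓞 F) (𝓞 M) y ∈ Q.under (𝓞 F) := by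
  have h1 : Ideal.span {y} ≤ Q := (Ideal.span_singleton_le_iff_mem Q).mpr hy
  have h2 := (Ideal.relNorm_mono (𝓞 F) h1).trans (Ideal.relNorm_le_comap (R := 𝓞 F) Q)
  rw [Ideal.relNorm_singleton] at h2
  exact h2 (Ideal.mem_span_singleton_self _)

/-- (X6'') If `N_{M/F} y` lies in the prime `q`, then `y` lies in some prime above `q`. -/
theorem exists_mem_of_intNorm_mem (q : Ideal (𝓞 F)) (hq : q.IsPrime) (y : 𝓞 M)
    (h : Algebra.intNorm (𝓞 F) (𝓞 M) y ∈ q) :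
    ∃ Q : Ideal (𝓞 M), Q.IsPrime ∧ Q.LiesOver q ∧ y ∈ Q := by
  by_cases hy : y = 0
  · obtain ⟨Q, hQ, hQq⟩ := exists_isPrime_liesOver F M q hq
    exact ⟨Q, hQ, hQq, hy ▸ Q.zero_mem⟩
  have hN : Algebra.intNorm (𝓞 F) (𝓞 M) y ≠ 0 := Algebra.intNorm_ne_zero.mpr hy
  have hq0 : q ≠ ⊥ := by
    rintro rfl
    exact hN (by simpa using h)
  have hI : Ideal.span {y} ≠ (⊥ : Ideal (𝓞 M)) := by
    simpa [Ideal.span_singleton_eq_bot] using hy
  have hs : ∀ Q ∈ UniqueFactorizationMonoid.normalizedFactors (Ideal.span {y} : Ideal (𝓞 M)),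
      Q.IsPrime ∧ Q ≠ ⊥ := by
    intro Q hQ
    exact ⟨((Ideal.mem_normalizedFactors_iff hI).mp hQ).1,
      UniqueFactorizationMonoid.ne_zero_of_mem_normalizedFactors hQ⟩
  have key := norm_normalizedFactors_relNorm_prod F M _ hs
  rw [Ideal.prod_normalizedFactors_eq_self hI, Ideal.relNorm_singleton] at key
  have hmem := (Frob.mem_normalizedFactors_span_iff F _ hN q).mpr ⟨hq, hq0, h⟩
  rw [key, Multiset.mem_bind] at hmem
  obtain ⟨Q, hQs, hQq⟩ := hmem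
  have hqQ : q = Q.under (𝓞 F) := Multiset.eq_of_mem_replicate hQq
  exact ⟨Q, (hs Q hQs).1, ⟨hqQ⟩, ((Frob.mem_normalizedFactors_span_iff M y hy Q).mp hQs).2.2⟩

end General

end Fermat.Agent.S14.Frob.Impl
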