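import Fermat.Agent.S14.Frob.API

/-!
# S14 / theory `Frob` (T2): implementation file `XTowerA` (Extra X14–X16)
-/

set_option autoImplicit false
set_option linter.unusedSectionVars false
set_option linter.unusedVariables false

namespace Fermat.Agent.S14.Frob.Impl

open NumberField
open scoped Pointwise

section Tower

variable (F N M : Type*) [Field F] [NumberField F] [Field N] [NumberField N]
  [Field M] [NumberField M] [Algebra F N] [Algebra N M] [Algebra F M] [IsScalarTower F N M]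
  [IsGalois F M] [IsGalois N M]

theorem xta_restrictScalars_smul (σ : M ≃ₐ[N] M) (x : 𝓞 M) :
    (σ.restrictScalars F) • x = σ • x := RingOfIntegers.ext rfl

theorem xta_restrictScalars_smul_ideal (σ : M ≃ₐ[N] M) (Q : Ideal (𝓞 M)) :
    (σ.restrictScalars F) • Q = σ • Q := by
  ext x
  rw [Ideal.mem_pointwise_smul_iff_inv_smul_mem, Ideal.mem_pointwise_smul_iff_inv_smul_mem]
  have : (σ.restrictScalars F)⁻¹ • x = σ⁻¹ • x := RingOfIntegers.ext rfl
  rw [this]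

/-- (X14) The inertia group of `Q` in `M/N` is the intersection of `Gal(M/N)` with the inertia
group of `Q` in `M/F`. -/
theorem restrictScalars_mem_inertia_iff (Q : Ideal (𝓞 M)) (σ : M ≃ₐ[N] M) :
    σ.restrictScalars F ∈ Q.inertia (M ≃ₐ[F] M) ↔ σ ∈ Q.inertia (M ≃ₐ[N] M) := by
  constructor
  · intro h x
    have := h x
    rwa [xta_restrictScalars_smul] at this
  · intro h x
    rw [xta_restrictScalars_smul]
    exact h x

/-- (X14') Same for decomposition groups. -/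
theorem restrictScalars_mem_stabilizer_iff (Q : Ideal (𝓞 M)) (σ : M ≃ₐ[N] M) :
    σ.restrictScalars F ∈ MulAction.stabilizer (M ≃ₐ[F] M) Q ↔
      σ ∈ MulAction.stabilizer (M ≃ₐ[N] M) Q := by
  rw [MulAction.mem_stabilizer_iff, MulAction.mem_stabilizer_iff, xta_restrictScalars_smul_ideal]

/-- (X15) Base change of the Frobenius: if `M/F` is unramified at `Q` and `τ` is the Frobenius of
`M/F` at `Q`, then `τ ^ f(Q ∩ N | Q ∩ F)` fixes `N` and is the Frobenius of `M/N` at `Q`. -/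
theorem exists_isArithFrobAt_pow_inertiaDeg (Q : Ideal (𝓞 M)) (hQ : Q.IsPrime) (hQ0 : Q ≠ ⊥)
    (hunr : UnramifiedAt F M Q) {τ : M ≃ₐ[F] M} (h : IsArithFrobAt (𝓞 F) τ Q) :
    ∃ τ' : M ≃ₐ[N] M, (∀ x : M, τ' x = (τ ^ (Q.under (𝓞 N)).inertiaDeg (𝓞 F)) x) ∧
      IsArithFrobAt (𝓞 N) τ' Q := by
  obtain ⟨τ', hτ'⟩ := exists_isArithFrobAt N M Q hQ hQ0
  refine ⟨τ', ?_, hτ'⟩
  have hu : (Q.under (𝓞 N)).under (𝓞 F) = Q.under (𝓞 F) := Ideal.under_under Q
  have hP : (Q.under (𝓞 N)).IsPrime := Ideal.IsPrime.under (𝓞 N) Q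
  have hover : (Q.under (𝓞 N)).LiesOver (Q.under (𝓞 F)) := ⟨hu.symm⟩
  have key := Ideal.absNorm_pow_inertiaDeg (Q.under (𝓞 F)) (Q.under (𝓞 N))
  rw [Ideal.absNorm_apply, Ideal.absNorm_apply, Submodule.cardQuot_apply,
    Submodule.cardQuot_apply] at key
  set f₁ := (Q.under (𝓞 N)).inertiaDeg (𝓞 F) with hf₁
  have hmem : τ'.restrictScalars F * (τ ^ f₁)⁻¹ ∈ Q.inertia (M ≃ₐ[F] M) := by
    intro x
    set y := (τ ^ f₁)⁻¹ • x with hy
    have hx : x = (τ ^ f₁) • y := by rw [hy, smul_inv_smul]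
    have h1 : τ' • y - y ^ Nat.card (𝓞 N ⧸ Q.under (𝓞 N)) ∈ Q := hτ' y
    have h2 := tw_pow_mem F M Q h f₁ y
    rw [key] at h2
    have h3 := Q.sub_mem h1 h2
    have h4 : τ' • y - (τ ^ f₁) • y ∈ Q := by
      convert h3 using 1
      ring
    rw [← hx] at h4
    rw [mul_smul, xta_restrictScalars_smul, ← hy]
    exact h4
  rw [show Q.inertia (M ≃ₐ[F] M) = ⊥ from hunr, Subgroup.mem_bot, mul_inv_eq_one] at hmem
  intro x
  have := congrArg (fun g : M ≃ₐ[F] M => g x) hmem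
  simpa using this

/-- (X16) If `M/F` is unramified at `Q` and the Frobenius of `M/F` at `Q` fixes `N` pointwise,
then `Q ∩ N` has inertia degree one over `F`. -/
theorem inertiaDeg_under_eq_one_of_fixes (Q : Ideal (𝓞 M)) (hQ : Q.IsPrime) (hQ0 : Q ≠ ⊥)
    (hunr : UnramifiedAt F M Q) {τ : M ≃ₐ[F] M} (h : IsArithFrobAt (𝓞 F) τ Q)
    (hfix : ∀ x : N, τ (algebraMap N M x) = algebraMap N M x) :
    (Q.under (𝓞 N)).inertiaDeg (𝓞 F) = 1 := by
  let τ₀ : M ≃ₐ[N] M := { τ.toRingEquiv with commutes' := hfix }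
  have hτ₀ : τ₀.restrictScalars F = τ := by ext x; rfl
  have hmem : τ₀ ∈ MulAction.stabilizer (M ≃ₐ[N] M) Q := by
    rw [← restrictScalars_mem_stabilizer_iff F N M, hτ₀]
    exact isArithFrobAt_mem_stabilizer F M Q hQ h
  have hcard := card_stabilizer_eq_inertiaDeg N M Q hQ hQ0 (unramifiedAt_of_tower F N M Q hunr)
  have hpow0 : τ₀ ^ Q.inertiaDeg (𝓞 N) = 1 := by
    have := orderOf_dvd_natCard (⟨τ₀, hmem⟩ : MulAction.stabilizer (M ≃ₐ[N] M) Q)
    rw [hcard, Subgroup.orderOf_mk τ₀ hmem] at this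
    exact orderOf_dvd_iff_pow_eq_one.mp this
  have hpow : τ ^ Q.inertiaDeg (𝓞 N) = 1 := by
    ext x
    have := congrArg (fun g : M ≃ₐ[N] M => g x) hpow0
    simp only [AlgEquiv.one_apply] at this ⊢
    have gen : ∀ k : ℕ, ∀ y : M, (τ ^ k) y = (τ₀ ^ k) y := by
      intro k
      induction k with
      | zero => intro y; rfl
      | succ k ih => intro y; rw [pow_succ, pow_succ, AlgEquiv.mul_apply, AlgEquiv.mul_apply, ih]; rfl
    exact (gen _ x).trans this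
  have hdvd : orderOf τ ∣ Q.inertiaDeg (𝓞 N) := orderOf_dvd_of_pow_eq_one hpow
  rw [orderOf_eq_inertiaDeg F M Q hQ hQ0 hunr h] at hdvd
  have hover : Q.LiesOver (Q.under (𝓞 N)) := ⟨rfl⟩
  have htower := Ideal.inertiaDeg_tower (R := 𝓞 F) (Q.under (𝓞 N)) Q
  have hpos : 0 < Q.inertiaDeg (𝓞 N) := Ideal.inertiaDeg_pos Q (𝓞 N)
  rw [htower] at hdvd
  have hle := Nat.le_of_dvd hpos hdvd
  have hP : (Q.under (𝓞 N)).IsPrime := Ideal.IsPrime.under (𝓞 N) Q
  have hpos1 : 0 < (Q.under (𝓞 N)).inertiaDeg (𝓞 F) := Ideal.inertiaDeg_pos _ (𝓞 F)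
  nlinarith

end Tower

end Fermat.Agent.S14.Frob.Impl
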