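import Fermat.Agent.S14.Frob.API
import Fermat.Agent.S14.Frob.XGeneral
import Fermat.Agent.S14.Frob.XGalois
import Fermat.Agent.S14.Frob.Card
import Fermat.Agent.S14.Frob.XNorm
import Fermat.Agent.S14.Frob.XTowerA
import Fermat.Agent.S14.Frob.Extra.H16_Restrict
import Fermat.Agent.S14.Frob.Extra.H16_InertiaLift
import Fermat.Agent.S14.Frob.Extra.H16_SplitTower
import Fermat.Agent.S14.Frob.Extra.H16_Compositum

/-!
# S14 / theory `Frob` (T2, owner helper18): second batch of API lemmas (for T7 / T6)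

Same conventions as `Frob/API.lean`.  Statements are published for consumers; the proofs live in
`Frob/X*.lean` (namespace `Fermat.Agent.S14.Frob.Impl`) and are re-exported here.
-/

set_option autoImplicit false
set_option linter.unusedSectionVars false
set_option linter.unusedVariables false

namespace Fermat.Agent.S14.Frob

open NumberField
open scoped Pointwise

section PrimesOfM

variable (M : Type*) [Field M] [NumberField M]

/-- (X5) Only finitely many primes contain a given nonzero integer. -/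
theorem finite_setOf_isPrime_natCast_mem (n : ℕ) (hn : n ≠ 0) :
    {Q : Ideal (𝓞 M) | Q.IsPrime ∧ (n : 𝓞 M) ∈ Q}.Finite :=
  Impl.finite_setOf_isPrime_natCast_mem M n hn

end PrimesOfM

section General

variable (F M : Type*) [Field F] [NumberField F] [Field M] [NumberField M] [Algebra F M]

/-- (X1) The prime below a nonzero prime is nonzero. -/
theorem under_ne_bot (Q : Ideal (𝓞 M)) (hQ0 : Q ≠ ⊥) : Q.under (𝓞 F) ≠ ⊥ :=
  Impl.under_ne_bot F M Q hQ0

/-- (X2) There is a prime above every prime. -/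
theorem exists_isPrime_liesOver (q : Ideal (𝓞 F)) (hq : q.IsPrime) :
    ∃ Q : Ideal (𝓞 M), Q.IsPrime ∧ Q.LiesOver q :=
  Impl.exists_isPrime_liesOver F M q hq

/-- (X2') A prime above a nonzero prime is nonzero. -/
theorem ne_bot_of_liesOver (q : Ideal (𝓞 F)) (hq0 : q ≠ ⊥) (Q : Ideal (𝓞 M)) [Q.LiesOver q] :
    Q ≠ ⊥ :=
  Impl.ne_bot_of_liesOver F M q hq0 Q

/-- (X3) `N Q = (N q) ^ f(Q | q)`. -/
theorem card_quotient_eq_pow_inertiaDeg (Q : Ideal (𝓞 M)) (hQ : Q.IsPrime) (hQ0 : Q ≠ ⊥) :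
    Nat.card (𝓞 M ⧸ Q) = Nat.card (𝓞 F ⧸ Q.under (𝓞 F)) ^ Q.inertiaDeg (𝓞 F) :=
  Impl.card_quotient_eq_pow_inertiaDeg F M Q hQ hQ0

/-- (X4) A rational integer lies in `Q` iff it lies in the prime below. -/
theorem natCast_mem_under_iff (Q : Ideal (𝓞 M)) (n : ℕ) :
    (n : 𝓞 F) ∈ Q.under (𝓞 F) ↔ (n : 𝓞 M) ∈ Q :=
  Impl.natCast_mem_under_iff F M Q n

/-- (X6) The absolute norm of `(N_{M/F} y)` is that of `(y)`. -/
theorem absNorm_span_intNorm (y : 𝓞 M) :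
    Ideal.absNorm (Ideal.span {Algebra.intNorm (𝓞 F) (𝓞 M) y}) = Ideal.absNorm (Ideal.span {y}) :=
  Impl.absNorm_span_intNorm F M y

/-- (X6') `y ∈ Q ⇒ N_{M/F} y ∈ Q ∩ 𝓞 F`. -/
theorem intNorm_mem_under (Q : Ideal (𝓞 M)) (y : 𝓞 M) (hy : y ∈ Q) :
    Algebra.intNorm (𝓞 F) (𝓞 M) y ∈ Q.under (𝓞 F) :=
  Impl.intNorm_mem_under F M Q y hy

/-- (X6'') If `N_{M/F} y` lies in the prime `q`, then `y` lies in some prime above `q`. -/
theorem exists_mem_of_intNorm_mem (q : Ideal (𝓞 F)) (hq : q.IsPrime) (y : 𝓞 M)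
    (h : Algebra.intNorm (𝓞 F) (𝓞 M) y ∈ q) :
    ∃ Q : Ideal (𝓞 M), Q.IsPrime ∧ Q.LiesOver q ∧ y ∈ Q :=
  Impl.exists_mem_of_intNorm_mem F M q hq y h

end General

section Galois

variable (F M : Type*) [Field F] [NumberField F] [Field M] [NumberField M] [Algebra F M]
  [IsGalois F M]

/-- (X7) If `q` splits completely, every prime above it has inertia degree one. -/
theorem inertiaDeg_eq_one_of_splitsCompletely (q : Ideal (𝓞 F)) (h : SplitsCompletely F M q)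
    (Q : Ideal (𝓞 M)) (hQ : Q.IsPrime) (hQ0 : Q ≠ ⊥) [Q.LiesOver q] :
    Q.inertiaDeg (𝓞 F) = 1 :=
  Impl.inertiaDeg_eq_one_of_splitsCompletely F M q h Q hQ hQ0

/-- (X9) `|D| = |I| · f`. -/
theorem card_stabilizer_eq_card_inertia_mul_inertiaDeg (Q : Ideal (𝓞 M)) (hQ : Q.IsPrime)
    (hQ0 : Q ≠ ⊥) :
    Nat.card (MulAction.stabilizer (M ≃ₐ[F] M) Q) =
      Nat.card (Q.inertia (M ≃ₐ[F] M)) * Q.inertiaDeg (𝓞 F) :=
  Impl.card_stabilizer_eq_card_inertia_mul_inertiaDeg F M Q hQ hQ0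

/-- (X8) At an unramified prime `|D| = f`. -/
theorem card_stabilizer_eq_inertiaDeg (Q : Ideal (𝓞 M)) (hQ : Q.IsPrime) (hQ0 : Q ≠ ⊥)
    (hunr : UnramifiedAt F M Q) :
    Nat.card (MulAction.stabilizer (M ≃ₐ[F] M) Q) = Q.inertiaDeg (𝓞 F) :=
  Impl.card_stabilizer_eq_inertiaDeg F M Q hQ hQ0 hunr

/-- (X22) `|I| = e`. -/
theorem card_inertia_eq_ramificationIdx (Q : Ideal (𝓞 M)) (hQ : Q.IsPrime) (hQ0 : Q ≠ ⊥) :
    Nat.card (Q.inertia (M ≃ₐ[F] M)) = Q.ramificationIdx (𝓞 F) :=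
  Impl.card_inertia_eq_ramificationIdx F M Q hQ hQ0

/-- (X10) Inertia fixes the roots of unity of order prime to the residue characteristic. -/
theorem apply_eq_of_mem_inertia_of_pow_eq_one (Q : Ideal (𝓞 M)) (hQ : Q.IsPrime)
    {τ : M ≃ₐ[F] M} (hτ : τ ∈ Q.inertia (M ≃ₐ[F] M)) (ζ : M) (m : ℕ) (hζ : ζ ^ m = 1)
    (hm : (m : 𝓞 M) ∉ Q) : τ ζ = ζ :=
  Impl.apply_eq_of_mem_inertia_of_pow_eq_one F M Q hQ hτ ζ m hζ hm

/-- (X11) The norm is the product of the conjugates. -/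
theorem algebraMap_intNorm_eq_prod [Fintype (M ≃ₐ[F] M)] (y : 𝓞 M) :
    algebraMap (𝓞 F) (𝓞 M) (Algebra.intNorm (𝓞 F) (𝓞 M) y) = ∏ g : M ≃ₐ[F] M, g • y :=
  Impl.algebraMap_intNorm_eq_prod F M y

/-- (X12) At a totally ramified prime (inertia group = whole Galois group) the norm is congruent
to the `[M:F]`-th power. -/
theorem intNorm_sub_pow_mem_of_inertia_eq_top (Q : Ideal (𝓞 M))
    (h : Q.inertia (M ≃ₐ[F] M) = ⊤) (y : 𝓞 M) :
    algebraMap (𝓞 F) (𝓞 M) (Algebra.intNorm (𝓞 F) (𝓞 M) y) - y ^ Module.finrank F M ∈ Q :=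
  Impl.intNorm_sub_pow_mem_of_inertia_eq_top F M Q h y

/-- (X13) At a totally ramified prime the residue field does not grow. -/
theorem exists_sub_mem_of_inertia_eq_top (Q : Ideal (𝓞 M)) (hQ : Q.IsPrime) (hQ0 : Q ≠ ⊥)
    (h : Q.inertia (M ≃ₐ[F] M) = ⊤) (x : 𝓞 M) :
    ∃ u : 𝓞 F, x - algebraMap (𝓞 F) (𝓞 M) u ∈ Q :=
  Impl.exists_sub_mem_of_inertia_eq_top F M Q hQ hQ0 h x

end Galois

section Tower

variable (F N M : Type*) [Field F] [NumberField F] [Field N] [NumberField N]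
  [Field M] [NumberField M] [Algebra F N] [Algebra N M] [Algebra F M] [IsScalarTower F N M]
  [IsGalois F M] [IsGalois N M]

/-- (X14) The inertia group of `Q` in `M/N` is the intersection of `Gal(M/N)` with the inertia
group of `Q` in `M/F`. -/
theorem restrictScalars_mem_inertia_iff (Q : Ideal (𝓞 M)) (σ : M ≃ₐ[N] M) :
    σ.restrictScalars F ∈ Q.inertia (M ≃ₐ[F] M) ↔ σ ∈ Q.inertia (M ≃ₐ[N] M) :=
  Impl.restrictScalars_mem_inertia_iff F N M Q σ

/-- (X14') Same for decomposition groups. -/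
theorem restrictScalars_mem_stabilizer_iff (Q : Ideal (𝓞 M)) (σ : M ≃ₐ[N] M) :
    σ.restrictScalars F ∈ MulAction.stabilizer (M ≃ₐ[F] M) Q ↔
      σ ∈ MulAction.stabilizer (M ≃ₐ[N] M) Q :=
  Impl.restrictScalars_mem_stabilizer_iff F N M Q σ

/-- (X15) Base change of the Frobenius: if `M/F` is unramified at `Q` and `τ` is the Frobenius of
`M/F` at `Q`, then `τ ^ f(Q ∩ N | Q ∩ F)` fixes `N` and is the Frobenius of `M/N` at `Q`. -/
theorem exists_isArithFrobAt_pow_inertiaDeg (Q : Ideal (𝓞 M)) (hQ : Q.IsPrime) (hQ0 : Q ≠ ⊥)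
    (hunr : UnramifiedAt F M Q) {τ : M ≃ₐ[F] M} (h : IsArithFrobAt (𝓞 F) τ Q) :
    ∃ τ' : M ≃ₐ[N] M, (∀ x : M, τ' x = (τ ^ (Q.under (𝓞 N)).inertiaDeg (𝓞 F)) x) ∧
      IsArithFrobAt (𝓞 N) τ' Q :=
  Impl.exists_isArithFrobAt_pow_inertiaDeg F N M Q hQ hQ0 hunr h

/-- (X16) If `M/F` is unramified at `Q` and the Frobenius of `M/F` at `Q` fixes `N` pointwise,
then `Q ∩ N` has inertia degree one over `F`. -/
theorem inertiaDeg_under_eq_one_of_fixes (Q : Ideal (𝓞 M)) (hQ : Q.IsPrime) (hQ0 : Q ≠ ⊥)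
    (hunr : UnramifiedAt F M Q) {τ : M ≃ₐ[F] M} (h : IsArithFrobAt (𝓞 F) τ Q)
    (hfix : ∀ x : N, τ (algebraMap N M x) = algebraMap N M x) :
    (Q.under (𝓞 N)).inertiaDeg (𝓞 F) = 1 :=
  Impl.inertiaDeg_under_eq_one_of_fixes F N M Q hQ hQ0 hunr h hfix

/-- (X17) Restriction maps the inertia group of `Q` into the inertia group of `Q ∩ N`. -/
theorem restrictNormal_mem_inertia [IsGalois F N] (Q : Ideal (𝓞 M)) {τ : M ≃ₐ[F] M}
    (h : τ ∈ Q.inertia (M ≃ₐ[F] M)) :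
    τ.restrictNormal N ∈ (Q.under (𝓞 N)).inertia (N ≃ₐ[F] N) :=
  Impl.restrictNormal_mem_inertia F N M Q h

/-- (X17') Restriction maps the decomposition group of `Q` into that of `Q ∩ N`. -/
theorem restrictNormal_mem_stabilizer [IsGalois F N] (Q : Ideal (𝓞 M)) {τ : M ≃ₐ[F] M}
    (h : τ ∈ MulAction.stabilizer (M ≃ₐ[F] M) Q) :
    τ.restrictNormal N ∈ MulAction.stabilizer (N ≃ₐ[F] N) (Q.under (𝓞 N)) :=
  H16.restrictNormal_mem_stabilizer F N M Q h

/-- (X18) Unramifiedness descends to subextensions. -/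
theorem unramifiedAt_under [IsGalois F N] (Q : Ideal (𝓞 M)) (hQ : Q.IsPrime) (hQ0 : Q ≠ ⊥)
    (hunr : UnramifiedAt F M Q) : UnramifiedAt F N (Q.under (𝓞 N)) :=
  H16.unramifiedAt_under F N M Q hQ hQ0 hunr

/-- (X19) Complete splitting descends to subextensions. -/
theorem splitsCompletely_of_tower [IsGalois F N] (q : Ideal (𝓞 F))
    (h : SplitsCompletely F M q) : SplitsCompletely F N q :=
  H16.splitsCompletely_of_tower F N M q h

/-- (X20) Every element of the inertia group of `Q ∩ N` in `N/F` is the restriction of an element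
of the inertia group of `Q` in `M/F`. -/
theorem exists_mem_inertia_restrictNormal_eq [IsGalois F N] (Q : Ideal (𝓞 M)) (hQ : Q.IsPrime)
    (hQ0 : Q ≠ ⊥) (g : N ≃ₐ[F] N) (hg : g ∈ (Q.under (𝓞 N)).inertia (N ≃ₐ[F] N)) :
    ∃ τ ∈ Q.inertia (M ≃ₐ[F] M), τ.restrictNormal N = g :=
  H16.exists_mem_inertia_restrictNormal_eq F N M Q hQ hQ0 g hg

end Tower

section CompositumTwo

variable (F N₁ N₂ M : Type*) [Field F] [NumberField F] [Field N₁] [NumberField N₁]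
  [Field N₂] [NumberField N₂] [Field M] [NumberField M]
  [Algebra F N₁] [Algebra F N₂] [Algebra N₁ M] [Algebra N₂ M] [Algebra F M]
  [IsScalarTower F N₁ M] [IsScalarTower F N₂ M] [IsGalois F N₁] [IsGalois F N₂] [IsGalois F M]

/-- (X21) A compositum of two extensions unramified at (the primes below) `Q` is unramified
at `Q`. -/
theorem unramifiedAt_of_compositum_two
    (hgen : ∀ τ : M ≃ₐ[F] M, (∀ x : N₁, τ (algebraMap N₁ M x) = algebraMap N₁ M x) →
      (∀ x : N₂, τ (algebraMap N₂ M x) = algebraMap N₂ M x) → τ = 1)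
    (Q : Ideal (𝓞 M)) (h₁ : UnramifiedAt F N₁ (Q.under (𝓞 N₁)))
    (h₂ : UnramifiedAt F N₂ (Q.under (𝓞 N₂))) : UnramifiedAt F M Q :=
  H16.unramifiedAt_of_compositum_two F N₁ N₂ M hgen Q h₁ h₂

end CompositumTwo

end Fermat.Agent.S14.Frob
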