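import Mathlib

/-!
# S14 / theory `Frob` (T2, owner helper18): implementation file `X310` (author helper310)

Sorry-free proofs of the following entries of `Frob/Extra.lean` (same names, same argument order,
namespace `Fermat.Agent.S14.Frob.X310`):

* `exists_isPrime_liesOver` (X2), `natCast_mem_under_iff` (X4),
* `algebraMap_intNorm_eq_prod` (X11): the norm is the product of the conjugates,
* `intNorm_sub_pow_mem_of_inertia_eq_top` (X12): at a totally ramified prime `N y ≡ y ^ [M:F]`,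
* `exists_sub_mem_of_inertia_eq_top` (X13): at a totally ramified prime the residue field does
  not grow,
* `restrictNormal_mem_inertia` (X17): restriction maps inertia into inertia.
-/

set_option autoImplicit false
set_option linter.unusedSectionVars false

namespace Fermat.Agent.S14.Frob.X310

open NumberField
open scoped Pointwise

section General

variable (F M : Type*) [Field F] [NumberField F] [Field M] [NumberField M] [Algebra F M]

/-- (X2) There is a prime above every prime. -/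
theorem exists_isPrime_liesOver (q : Ideal (𝓞 F)) (hq : q.IsPrime) :
    ∃ Q : Ideal (𝓞 M), Q.IsPrime ∧ Q.LiesOver q := by
  obtain ⟨Q, -, hQ, hQq⟩ := Ideal.exists_ideal_over_prime_of_isIntegral q (⊥ : Ideal (𝓞 M))
    (by
      rw [Ideal.comap_bot_of_injective _ (FaithfulSMul.algebraMap_injective (𝓞 F) (𝓞 M))]
      exact bot_le)
  exact ⟨Q, hQ, ⟨hQq.symm⟩⟩

/-- (X4) A rational integer lies in `Q` iff it lies in the prime below. -/
theorem natCast_mem_under_iff (Q : Ideal (𝓞 M)) (n : ℕ) :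
    (n : 𝓞 F) ∈ Q.under (𝓞 F) ↔ (n : 𝓞 M) ∈ Q := by
  rw [Ideal.under_def, Ideal.mem_comap, map_natCast]

end General

section Galois

variable (F M : Type*) [Field F] [NumberField F] [Field M] [NumberField M] [Algebra F M]
  [IsGalois F M]

/-- (X11) The norm is the product of the conjugates. -/
theorem algebraMap_intNorm_eq_prod [Fintype (M ≃ₐ[F] M)] (y : 𝓞 M) :
    algebraMap (𝓞 F) (𝓞 M) (Algebra.intNorm (𝓞 F) (𝓞 M) y) = ∏ g : M ≃ₐ[F] M, g • y := by
  apply RingOfIntegers.coe_injective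
  have h1 : algebraMap (𝓞 M) M (algebraMap (𝓞 F) (𝓞 M) (Algebra.intNorm (𝓞 F) (𝓞 M) y)) =
      algebraMap F M (algebraMap (𝓞 F) F (Algebra.intNorm (𝓞 F) (𝓞 M) y)) := rfl
  rw [h1, Algebra.algebraMap_intNorm (L := M), Algebra.norm_eq_prod_automorphisms, map_prod]
  refine Finset.prod_congr ?_ (fun g _ => rfl)
  ext g
  simp

/-- (X12) At a totally ramified prime (inertia group = whole Galois group) the norm is congruent
to the `[M:F]`-th power. -/
theorem intNorm_sub_pow_mem_of_inertia_eq_top (Q : Ideal (𝓞 M))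
    (h : Q.inertia (M ≃ₐ[F] M) = ⊤) (y : 𝓞 M) :
    algebraMap (𝓞 F) (𝓞 M) (Algebra.intNorm (𝓞 F) (𝓞 M) y) - y ^ Module.finrank F M ∈ Q := by
  classical
  have hmem : ∀ g : M ≃ₐ[F] M, g • y - y ∈ Q := by
    intro g
    have hg : g ∈ Q.inertia (M ≃ₐ[F] M) := by rw [h]; exact Subgroup.mem_top g
    exact hg y
  rw [algebraMap_intNorm_eq_prod F M y, ← Ideal.Quotient.eq, map_prod, map_pow]
  have h2 : ∀ g : M ≃ₐ[F] M, Ideal.Quotient.mk Q (g • y) = Ideal.Quotient.mk Q y :=
    fun g => Ideal.Quotient.eq.2 (hmem g)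
  simp only [h2, Finset.prod_const, Finset.card_univ]
  rw [← Nat.card_eq_fintype_card, IsGalois.card_aut_eq_finrank]

/-- (X13) At a totally ramified prime the residue field does not grow. -/
theorem exists_sub_mem_of_inertia_eq_top (Q : Ideal (𝓞 M)) (hQ : Q.IsPrime) (hQ0 : Q ≠ ⊥)
    (h : Q.inertia (M ≃ₐ[F] M) = ⊤) (x : 𝓞 M) :
    ∃ u : 𝓞 F, x - algebraMap (𝓞 F) (𝓞 M) u ∈ Q := by
  classical
  have hfinl : Finite (𝓞 M ⧸ Q) := Ring.HasFiniteQuotients.finiteQuotient hQ0
  obtain ⟨φ, hφ⟩ : ∃ τ : M ≃ₐ[F] M, IsArithFrobAt (𝓞 F) τ Q :=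
    IsArithFrobAt.exists_of_isInvariant (𝓞 F) (M ≃ₐ[F] M) Q
  have hQmax : Q.IsMaximal := hQ.isMaximal hQ0
  let : Field (𝓞 M ⧸ Q) := Ideal.Quotient.field Q
  have hinj : Function.Injective (algebraMap (𝓞 F ⧸ Q.under (𝓞 F)) (𝓞 M ⧸ Q)) :=
    Ideal.algebraMap_quotient_injective
  have hfink : Finite (𝓞 F ⧸ Q.under (𝓞 F)) := Finite.of_injective _ hinj
  have hpr : (Q.under (𝓞 F)).IsPrime := Ideal.IsPrime.under (𝓞 F) Q
  have hntk : Nontrivial (𝓞 F ⧸ Q.under (𝓞 F)) := Ideal.Quotient.nontrivial_iff.2 hpr.ne_top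
  set n : ℕ := Nat.card (𝓞 F ⧸ Q.under (𝓞 F)) with hn
  have hn1 : 1 < n := Finite.one_lt_card
  -- every element of the residue field of `Q` is a root of `X ^ n - X`
  have hpow : ∀ z : 𝓞 M ⧸ Q, z ^ n = z := by
    intro z
    obtain ⟨z, rfl⟩ := Ideal.Quotient.mk_surjective z
    have h1 : φ • z - z ^ n ∈ Q := hφ z
    have h2 : φ • z - z ∈ Q := by
      have hg : φ ∈ Q.inertia (M ≃ₐ[F] M) := by rw [h]; exact Subgroup.mem_top φ
      exact hg z
    rw [← map_pow]
    refine (Ideal.Quotient.eq.2 ?_)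
    have := Q.sub_mem h2 h1
    simpa using this
  have hcard : Nat.card (𝓞 M ⧸ Q) ≤ n := by
    have := Fintype.ofFinite (𝓞 M ⧸ Q)
    rw [Nat.card_eq_fintype_card, ← Finset.card_univ]
    have hne : (Polynomial.X ^ n - Polynomial.X : Polynomial (𝓞 M ⧸ Q)) ≠ 0 :=
      FiniteField.X_pow_card_sub_X_ne_zero _ hn1
    have := Polynomial.card_le_degree_of_subset_roots
      (p := (Polynomial.X ^ n - Polynomial.X : Polynomial (𝓞 M ⧸ Q)))
      (Z := (Finset.univ : Finset (𝓞 M ⧸ Q))) (by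
        intro z _
        rw [Polynomial.mem_roots hne]
        simp [hpow z])
    rwa [FiniteField.X_pow_card_sub_X_natDegree_eq _ hn1] at this
  have hbij : Function.Bijective (algebraMap (𝓞 F ⧸ Q.under (𝓞 F)) (𝓞 M ⧸ Q)) :=
    hinj.bijective_of_nat_card_le hcard
  obtain ⟨u, hu⟩ := hbij.2 (Ideal.Quotient.mk Q x)
  obtain ⟨u, rfl⟩ := Ideal.Quotient.mk_surjective u
  refine ⟨u, ?_⟩
  rw [← Ideal.Quotient.eq]
  exact hu.symm

end Galois

section Tower

variable (F N M : Type*) [Field F] [NumberField F] [Field N] [NumberField N]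
  [Field M] [NumberField M] [Algebra F N] [Algebra N M] [Algebra F M] [IsScalarTower F N M]
  [IsGalois F M] [IsGalois N M]

/-- (X17) Restriction maps the inertia group of `Q` into the inertia group of `Q ∩ N`. -/
theorem restrictNormal_mem_inertia [IsGalois F N] (Q : Ideal (𝓞 M)) {τ : M ≃ₐ[F] M}
    (h : τ ∈ Q.inertia (M ≃ₐ[F] M)) :
    τ.restrictNormal N ∈ (Q.under (𝓞 N)).inertia (N ≃ₐ[F] N) := by
  intro x
  change (τ.restrictNormal N) • x - x ∈ Q.under (𝓞 N)
  rw [Ideal.under_def, Ideal.mem_comap, map_sub]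
  have h1 : algebraMap (𝓞 N) (𝓞 M) ((τ.restrictNormal N) • x) = τ • algebraMap (𝓞 N) (𝓞 M) x := by
    apply RingOfIntegers.coe_injective
    exact AlgEquiv.restrictNormal_commutes τ N (x : N)
  rw [h1]
  exact h (algebraMap (𝓞 N) (𝓞 M) x)

end Tower

end Fermat.Agent.S14.Frob.X310
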